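import Mathlib
import Fermat.Prelude.Def_ModularForm_HeckeOperatorForms
import Fermat.Prelude.Thm_ModularFormClass_qCoeff_heckeU
import Fermat.Prelude.Thm_ModularForm_isBoundedAtImInfty_heckeU
import Fermat.Prelude.Thm_CongruenceSubgroup_one_mem_strictPeriods_Gamma0
import Fermat.Agent.S23.LevelOne

/-!
# S16 shared layer: the conjugates of a form on `Γ₀(p)` (tool T1)

For a prime `p` the right cosets of `Γ₀(p)` in `SL(2, ℤ)` are represented by `1` and
`rep j = S * T ^ j`, `j < p`.  We prove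

* `conj_slash` : `SL(2, ℤ)` permutes the conjugates `cj k h i` (`i : Option (Fin p)`) of a
  `Γ₀(p)`-invariant function;
* `trace_slash`, `norm_slash` : trace and norm to level one are `SL(2, ℤ)`-invariant;
* `trace_eq_zero` : in weight two the trace of a holomorphic, cusp-bounded function vanishes;
* `slash_rep` : for `f ∈ M₂(Γ₀(p))`, `f ∣ S T^j = -(U_p f) ∣ heckeMatrix p j`, i.e.
  `(f ∣ S T^j)(τ) = -p⁻¹ (U_p f)((τ + j) / p)`.
-/

set_option autoImplicit false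

namespace Fermat.Agent.S16.ConjQ

open UpperHalfPlane ModularForm Matrix.SpecialLinearGroup CongruenceSubgroup Filter
open scoped MatrixGroups Manifold ModularForm Topology

/-- The coset representative `S * T ^ j = [[0, -1], [1, j]]`. -/
def rep (j : ℕ) : SL(2, ℤ) := ModularGroup.S * ModularGroup.T ^ (j : ℤ)

theorem coe_rep (j : ℕ) : (rep j : Matrix (Fin 2) (Fin 2) ℤ) = !![0, -1; 1, (j : ℤ)] := by
  rw [rep, Matrix.SpecialLinearGroup.coe_mul, ModularGroup.coe_S, ModularGroup.coe_T_zpow]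
  ext i k
  fin_cases i <;> fin_cases k <;> simp [Matrix.mul_apply, Fin.sum_univ_two]

theorem det_eq' (g : SL(2, ℤ)) : g 0 0 * g 1 1 - g 0 1 * g 1 0 = 1 := by
  have h := g.det_coe
  rw [Matrix.det_fin_two] at h
  exact h

/-- Entry `(1, 0)` of `g * (rep j)⁻¹`. -/
theorem mul_rep_inv_one_zero (g : SL(2, ℤ)) (j : ℕ) :
    (g * (rep j)⁻¹) 1 0 = g 1 0 * j - g 1 1 := by
  rw [Matrix.SpecialLinearGroup.coe_mul, Matrix.SpecialLinearGroup.coe_inv, coe_rep,
    Matrix.adjugate_fin_two]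
  simp [Matrix.mul_apply, Fin.sum_univ_two]
  ring

/-- The representatives: `none ↦ 1`, `some j ↦ S T^j`. -/
def R (p : ℕ) : Option (Fin p) → SL(2, ℤ)
  | none => 1
  | some j => rep j

/-- The classifying map of the right cosets `Γ₀(p) \ SL(2, ℤ)`. -/
noncomputable def cls (p : ℕ) [NeZero p] (g : SL(2, ℤ)) : Option (Fin p) :=
  if ((g 1 0 : ℤ) : ZMod p) = 0 then none
  else some ⟨ZMod.val (((g 1 1 : ℤ) : ZMod p) * ((g 1 0 : ℤ) : ZMod p)⁻¹), ZMod.val_lt _⟩

variable {p : ℕ} [hp : Fact p.Prime]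

/-- Every `g` lies in the coset `Γ₀(p) * R (cls g)`. -/
theorem mul_R_cls_inv_mem (g : SL(2, ℤ)) : g * (R p (cls p g))⁻¹ ∈ Gamma0 p := by
  rw [Gamma0_mem]
  by_cases h : ((g 1 0 : ℤ) : ZMod p) = 0
  · simp [cls, h, R]
  · simp only [cls, h, if_false, R]
    rw [mul_rep_inv_one_zero]
    push_cast
    rw [ZMod.natCast_zmod_val]
    field_simp
    ring

/-- The coset of `g` determines the index. -/
theorem eq_cls_of_mem (g : SL(2, ℤ)) (i : Option (Fin p)) (h : g * (R p i)⁻¹ ∈ Gamma0 p) :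
    i = cls p g := by
  rw [Gamma0_mem] at h
  cases i with
  | none =>
    simp only [R, inv_one, mul_one] at h
    simp [cls, h]
  | some j =>
    simp only [R] at h
    rw [mul_rep_inv_one_zero] at h
    push_cast at h
    have hc : ((g 1 0 : ℤ) : ZMod p) ≠ 0 := by
      intro h0
      rw [h0, zero_mul, zero_sub, neg_eq_zero] at h
      have hd := congrArg (Int.cast : ℤ → ZMod p) (det_eq' g)
      push_cast at hd
      rw [h0, h] at hd
      simp at hd
    simp only [cls, hc, if_false, Option.some.injEq]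
    apply Fin.ext
    simp only
    have hj : ((j : ℕ) : ZMod p) = ((g 1 1 : ℤ) : ZMod p) * ((g 1 0 : ℤ) : ZMod p)⁻¹ := by
      field_simp
      linear_combination h
    rw [← hj, ZMod.val_natCast, Nat.mod_eq_of_lt j.2]

/-- The permutation of the index set induced by right multiplication by `γ`. -/
noncomputable def sig (p : ℕ) [NeZero p] (γ : SL(2, ℤ)) (i : Option (Fin p)) : Option (Fin p) :=
  cls p (R p i * γ)

theorem R_mul_mem (γ : SL(2, ℤ)) (i : Option (Fin p)) :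
    R p i * γ * (R p (sig p γ i))⁻¹ ∈ Gamma0 p :=
  mul_R_cls_inv_mem (R p i * γ)

theorem sig_inv_sig (γ : SL(2, ℤ)) (i : Option (Fin p)) : sig p γ⁻¹ (sig p γ i) = i := by
  symm
  apply eq_cls_of_mem
  have h := (Gamma0 p).inv_mem (R_mul_mem γ i)
  convert h using 1
  group

/-- `sig γ` as a permutation. -/
noncomputable def sigPerm (p : ℕ) [Fact p.Prime] (γ : SL(2, ℤ)) : Equiv.Perm (Option (Fin p)) where
  toFun := sig p γ
  invFun := sig p γ⁻¹
  left_inv := sig_inv_sig γ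
  right_inv := fun i => by simpa using sig_inv_sig (p := p) γ⁻¹ i

/-! ### The conjugates -/

/-- The conjugates of `h`: `cj none = h`, `cj (some j) = h ∣ S T^j`. -/
noncomputable def cj (p : ℕ) (k : ℤ) (h : ℍ → ℂ) (i : Option (Fin p)) : ℍ → ℂ := h ∣[k] R p i

omit hp in
theorem cj_none (k : ℤ) (h : ℍ → ℂ) : cj p k h none = h := by
  simp [cj, R]

omit hp in
theorem cj_some (k : ℤ) (h : ℍ → ℂ) (j : Fin p) : cj p k h (some j) = h ∣[k] rep j := rfl

/-- `SL(2, ℤ)` permutes the conjugates of a `Γ₀(p)`-invariant function. -/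
theorem cj_slash {k : ℤ} {h : ℍ → ℂ} (hinv : ∀ γ ∈ Gamma0 p, h ∣[k] γ = h) (γ : SL(2, ℤ))
    (i : Option (Fin p)) : cj p k h i ∣[k] γ = cj p k h (sigPerm p γ i) := by
  unfold cj
  rw [← SlashAction.slash_mul]
  have e : R p i * γ = (R p i * γ * (R p (sig p γ i))⁻¹) * R p (sig p γ i) := by group
  rw [e, SlashAction.slash_mul, hinv _ (R_mul_mem γ i)]
  rfl

/-- Every slash translate of a `Γ₀(p)`-invariant function is a conjugate. -/
theorem slash_eq_cj {k : ℤ} {h : ℍ → ℂ} (hinv : ∀ γ ∈ Gamma0 p, h ∣[k] γ = h) (γ : SL(2, ℤ)) :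
    h ∣[k] γ = cj p k h (cls p γ) := by
  unfold cj
  have e : γ = (γ * (R p (cls p γ))⁻¹) * R p (cls p γ) := by group
  conv_lhs => rw [e]
  rw [SlashAction.slash_mul, hinv _ (mul_R_cls_inv_mem γ)]

omit hp in
theorem sum_cj (k : ℤ) (h : ℍ → ℂ) :
    ∑ i, cj p k h i = h + ∑ j ∈ Finset.range p, h ∣[k] rep j := by
  rw [Fintype.sum_option, cj_none, Finset.sum_range]
  rfl

omit hp in
theorem prod_cj (k : ℤ) (h : ℍ → ℂ) :
    ∏ i, cj p k h i = h * ∏ j ∈ Finset.range p, h ∣[k] rep j := by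
  rw [Fintype.prod_option, cj_none, Finset.prod_range]
  rfl

/-- The trace to level one is `SL(2, ℤ)`-invariant. -/
theorem sum_cj_slash {k : ℤ} {h : ℍ → ℂ} (hinv : ∀ γ ∈ Gamma0 p, h ∣[k] γ = h) (γ : SL(2, ℤ)) :
    (∑ i, cj p k h i) ∣[k] γ = ∑ i, cj p k h i := by
  rw [SlashAction.sum_slash]
  simp_rw [cj_slash hinv γ]
  exact Equiv.sum_comp (sigPerm p γ) (cj p k h)

/-- The norm to level one is `SL(2, ℤ)`-invariant. -/
theorem prod_cj_slash {k : ℤ} {h : ℍ → ℂ} (hinv : ∀ γ ∈ Gamma0 p, h ∣[k] γ = h) (γ : SL(2, ℤ)) :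
    (∏ i, cj p k h i) ∣[k * (p + 1)] γ = ∏ i, cj p k h i := by
  have hc : ((Finset.univ : Finset (Option (Fin p))).card : ℤ) = p + 1 := by
    simp
  have e1 : ∀ (m : ℤ) (F : ℍ → ℂ), F ∣[m] γ = F ∣[m] (mapGL ℝ γ) := fun _ _ => rfl
  rw [← hc, e1, ModularForm.prod_slash]
  have hdet : |(mapGL ℝ γ : GL (Fin 2) ℝ).det.val| = 1 := by
    simp
  rw [hdet, one_zpow, one_smul]
  simp_rw [← e1, cj_slash hinv γ]
  exact Equiv.prod_comp (sigPerm p γ) (cj p k h)

/-! ### Trace and norm are level one forms -/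

omit hp in
theorem mdiff_cj {k : ℤ} {h : ℍ → ℂ} (hhol : MDiff h) (i : Option (Fin p)) :
    MDiff (cj p k h i) :=
  MDifferentiable.slash hhol k (mapGL ℝ (R p i))

/-- The trace of a `Γ₀(p)`-invariant holomorphic function, bounded at both cusps, is a level
one modular form. -/
theorem isLO_sum_cj {k : ℤ} {h : ℍ → ℂ} (hinv : ∀ γ ∈ Gamma0 p, h ∣[k] γ = h) (hhol : MDiff h)
    (hb : ∀ i, IsBoundedAtImInfty (cj p k h i)) :
    Fermat.Agent.S23.IsLO k (∑ i, cj p k h i) := by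
  refine Fermat.Agent.S23.IsLO.of_invariant (sum_cj_slash hinv) ?_ ?_
  · exact MDifferentiable.sum fun i _ => mdiff_cj hhol i
  · rw [IsBoundedAtImInfty, Filter.BoundedAtFilter, Finset.sum_fn]
    exact Asymptotics.IsBigO.fun_sum fun i _ => hb i

/-- The norm of a `Γ₀(p)`-invariant holomorphic function, bounded at both cusps, is a level
one modular form of weight `k * (p + 1)`. -/
theorem isLO_prod_cj {k : ℤ} {h : ℍ → ℂ} (hinv : ∀ γ ∈ Gamma0 p, h ∣[k] γ = h) (hhol : MDiff h)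
    (hb : ∀ i, IsBoundedAtImInfty (cj p k h i)) :
    Fermat.Agent.S23.IsLO (k * (p + 1)) (∏ i, cj p k h i) := by
  refine Fermat.Agent.S23.IsLO.of_invariant (prod_cj_slash hinv) ?_ ?_
  · exact MDifferentiable.prod fun i _ => mdiff_cj hhol i
  · rw [IsBoundedAtImInfty, Filter.BoundedAtFilter,
      show (1 : ℍ → ℝ) = (fun x ↦ ∏ (i : Option (Fin p)), 1) by ext; simp, Finset.prod_fn]
    exact Asymptotics.IsBigO.finsetProd fun i _ => hb i

omit hp in
/-- Boundedness of all conjugates from boundedness at `i∞` of `h` and of the `h ∣ S T^j`. -/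
theorem bdd_cj_of {k : ℤ} {h : ℍ → ℂ} (hb : IsBoundedAtImInfty h)
    (hbj : ∀ j < p, IsBoundedAtImInfty (h ∣[k] rep j)) (i : Option (Fin p)) :
    IsBoundedAtImInfty (cj p k h i) := by
  cases i with
  | none => rw [cj_none]; exact hb
  | some j => exact hbj j j.2

/-- The conjugates of a modular form are bounded at `i∞`. -/
theorem bdd_cj_form {k : ℤ} (f : ModularForm (Gamma0 p) k) (i : Option (Fin p)) :
    IsBoundedAtImInfty (cj p k f i) :=
  ModularFormClass.bdd_at_infty_slash f (R p i)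

omit hp in
theorem inv_form {k : ℤ} (f : ModularForm (Gamma0 p) k) :
    ∀ γ ∈ Gamma0 p, (f : ℍ → ℂ) ∣[k] γ = f := fun γ hγ =>
  f.slash_action_eq' (mapGL ℝ γ) ⟨γ, hγ, rfl⟩

/-- **Trace zero in weight two.** -/
theorem sum_cj_eq_zero {h : ℍ → ℂ} (hinv : ∀ γ ∈ Gamma0 p, h ∣[(2 : ℤ)] γ = h) (hhol : MDiff h)
    (hb : ∀ i, IsBoundedAtImInfty (cj p 2 h i)) : ∑ i, cj p 2 h i = 0 := by
  obtain ⟨c, hc⟩ := isLO_sum_cj hinv hhol hb
  have h0 : c = 0 := (rank_zero_iff_forall_zero.mp ModularForm.levelOne_weight_two_rank_zero) c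
  rw [← hc, h0]
  rfl

/-- Trace zero in weight two, explicit form. -/
theorem trace_eq_zero {h : ℍ → ℂ} (hinv : ∀ γ ∈ Gamma0 p, h ∣[(2 : ℤ)] γ = h) (hhol : MDiff h)
    (hb : IsBoundedAtImInfty h) (hbj : ∀ j < p, IsBoundedAtImInfty (h ∣[(2 : ℤ)] rep j)) :
    h + ∑ j ∈ Finset.range p, h ∣[(2 : ℤ)] rep j = 0 := by
  rw [← sum_cj]
  exact sum_cj_eq_zero hinv hhol (bdd_cj_of hb hbj)

/-! ### The Fricke involution and the conjugates in weight two -/

/-- `f ∣ W_p = f ∣ S ∣ diag(p, 1)` (weight two). -/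
noncomputable def wp (p : ℕ) (f : ℍ → ℂ) : ℍ → ℂ :=
  (f ∣[(2 : ℤ)] ModularGroup.S) ∣[(2 : ℤ)] heckeDiagMatrix p

theorem wp_apply (f : ℍ → ℂ) (τ : ℍ) :
    wp p f τ = p * (f ∣[(2 : ℤ)] ModularGroup.S) (heckeDiagMatrix p • τ) := by
  rw [wp, slash_heckeDiagMatrix_apply 2 hp.out.ne_zero]
  norm_num

/-- An element of `SL(2, ℤ)` from its entries. -/
def mk2 (a b c d : ℤ) (h : a * d - b * c = 1) : SL(2, ℤ) :=
  ⟨!![a, b; c, d], by rw [Matrix.det_fin_two_of]; exact h⟩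

omit hp in
theorem coe_mk2 (a b c d : ℤ) (h : a * d - b * c = 1) :
    (mk2 a b c d h : Matrix (Fin 2) (Fin 2) ℤ) = !![a, b; c, d] := rfl

omit hp in
theorem mapGL_apply' (g : SL(2, ℤ)) (i j : Fin 2) :
    (mapGL ℝ g : GL (Fin 2) ℝ) i j = ((g i j : ℤ) : ℝ) := by
  simp

/-- `S D γ = γ' S D` for `γ ∈ Γ₀(p)`. -/
theorem SD_mul (γ : SL(2, ℤ)) (hγ : γ ∈ Gamma0 p) :
    ∃ γ' ∈ Gamma0 p, mapGL ℝ ModularGroup.S * heckeDiagMatrix p * mapGL ℝ γ =
      mapGL ℝ γ' * (mapGL ℝ ModularGroup.S * heckeDiagMatrix p) := by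
  rw [Gamma0_mem, ZMod.intCast_zmod_eq_zero_iff_dvd] at hγ
  obtain ⟨c', hc'⟩ := hγ
  have hdet := det_eq' γ
  refine ⟨mk2 (γ 1 1) (-c') (-(p * γ 0 1)) (γ 0 0) ?_, ?_, ?_⟩
  · rw [hc'] at hdet
    linear_combination hdet
  · rw [Gamma0_mem, coe_mk2]
    simp
  · have hc'' := congrArg (Int.cast : ℤ → ℝ) hc'
    push_cast at hc''
    ext i j
    fin_cases i <;> fin_cases j <;>
      simp [hp.out.ne_zero, Matrix.mul_apply, Fin.sum_univ_two, ModularGroup.coe_S, hc'',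
        coe_mk2]
    all_goals ring

theorem SD_rep (j : ℕ) :
    mapGL ℝ ModularGroup.S * heckeDiagMatrix p * mapGL ℝ (rep j) =
      mapGL ℝ (-1 : SL(2, ℤ)) * heckeMatrix p j := by
  ext i k
  fin_cases i <;> fin_cases k <;>
    simp [hp.out.ne_zero, Matrix.mul_apply, Fin.sum_univ_two, ModularGroup.coe_S, coe_rep]

theorem neg_one_mem : (-1 : SL(2, ℤ)) ∈ Gamma0 p := by
  rw [Gamma0_mem]
  simp

theorem wp_slash {f : ℍ → ℂ} (hinv : ∀ γ ∈ Gamma0 p, f ∣[(2 : ℤ)] γ = f) (γ : SL(2, ℤ))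
    (hγ : γ ∈ Gamma0 p) : wp p f ∣[(2 : ℤ)] γ = wp p f := by
  obtain ⟨γ', hγ', e⟩ := SD_mul γ hγ
  have e1 : ∀ (F : ℍ → ℂ) (g : SL(2, ℤ)), F ∣[(2 : ℤ)] g = F ∣[(2 : ℤ)] (mapGL ℝ g) :=
    fun _ _ => rfl
  rw [wp, e1, e1, ← SlashAction.slash_mul, ← SlashAction.slash_mul, ← mul_assoc, e,
    SlashAction.slash_mul, ← e1, hinv γ' hγ', SlashAction.slash_mul]

theorem wp_slash_rep {f : ℍ → ℂ} (hinv : ∀ γ ∈ Gamma0 p, f ∣[(2 : ℤ)] γ = f) (j : ℕ) :
    wp p f ∣[(2 : ℤ)] rep j = f ∣[(2 : ℤ)] heckeMatrix p j := by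
  have e1 : ∀ (F : ℍ → ℂ) (g : SL(2, ℤ)), F ∣[(2 : ℤ)] g = F ∣[(2 : ℤ)] (mapGL ℝ g) :=
    fun _ _ => rfl
  rw [wp, e1, e1, ← SlashAction.slash_mul, ← SlashAction.slash_mul, ← mul_assoc, SD_rep,
    SlashAction.slash_mul, ← e1, hinv _ neg_one_mem]

theorem slash_rep_eq_wp (f : ℍ → ℂ) (j : ℕ) :
    f ∣[(2 : ℤ)] rep j = wp p f ∣[(2 : ℤ)] heckeMatrix p j := by
  funext τ
  have hp0 : p ≠ 0 := hp.out.ne_zero
  have hpc : (p : ℂ) ≠ 0 := by exact_mod_cast hp0
  rw [slash_heckeMatrix_apply 2 hp0, wp_apply, rep, SlashAction.slash_mul, SL_slash_apply]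
  have e : heckeDiagMatrix p • heckeMatrix p j • τ = ModularGroup.T ^ (j : ℤ) • τ := by
    apply UpperHalfPlane.ext
    rw [coe_heckeDiagMatrix_smul hp0, coe_heckeMatrix_smul hp0, ModularGroup.coe_T_zpow_smul_eq]
    field_simp
    push_cast
    ring
  have hd := ModularGroup.denom_apply (ModularGroup.T ^ (j : ℤ)) τ
  rw [ModularGroup.coe_T_zpow] at hd
  simp only [Matrix.of_apply, Matrix.cons_val_one, Matrix.cons_val_zero, Int.cast_zero, zero_mul,
    Int.cast_one, zero_add] at hd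
  rw [e, hd]
  field_simp

/-- **T1**: `f ∣ W_p = -U_p f` for `f ∈ M₂(Γ₀(p))`. -/
theorem wp_eq_neg_heckeU (f : ModularForm (Gamma0 p) 2) :
    wp p f = -heckeU 2 p f := by
  have hinv := inv_form f
  have h0 := trace_eq_zero (p := p) (h := wp p f) (wp_slash hinv)
    (MDifferentiable.slash (MDifferentiable.slash f.holo' 2 _) 2 _)
    ((ModularFormClass.bdd_at_infty_slash f ModularGroup.S).slash 2
      (by simp [hp.out.ne_zero]))
    (fun j _ => by
      rw [wp_slash_rep hinv]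
      exact (ModularFormClass.bdd_at_infty f).slash 2 (by simp [hp.out.ne_zero]))
  simp_rw [wp_slash_rep hinv] at h0
  rw [← heckeU_def] at h0
  exact eq_neg_of_add_eq_zero_left h0

/-- **T1**: the conjugates of `f ∈ M₂(Γ₀(p))`: `f ∣ S T^j = -(U_p f) ∣ [[1, j], [0, p]]`. -/
theorem slash_rep (f : ModularForm (Gamma0 p) 2) (j : ℕ) :
    (f : ℍ → ℂ) ∣[(2 : ℤ)] rep j = -(heckeU 2 p f ∣[(2 : ℤ)] heckeMatrix p j) := by
  rw [slash_rep_eq_wp (p := p), wp_eq_neg_heckeU, SlashAction.neg_slash]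

/-- **T1**, pointwise: `(f ∣ S T^j)(τ) = -p⁻¹ (U_p f)((τ + j) / p)`. -/
theorem slash_rep_apply (f : ModularForm (Gamma0 p) 2) (j : ℕ) (τ : ℍ) :
    ((f : ℍ → ℂ) ∣[(2 : ℤ)] rep j) τ = -((p : ℂ)⁻¹ * heckeU 2 p f (heckeMatrix p j • τ)) := by
  rw [slash_rep f j, Pi.neg_apply, slash_heckeMatrix_apply 2 hp.out.ne_zero]

/-! ### `q`-expansions of the conjugates in `q_p = e^{2πiτ/p}` -/

local notation "𝕢" => Function.Periodic.qParam

theorem R_mul_T_pow_mem (i : Option (Fin p)) :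
    R p i * ModularGroup.T ^ (p : ℤ) * (R p i)⁻¹ ∈ Gamma0 p := by
  cases i with
  | none =>
    simp only [R, one_mul, inv_one, mul_one]
    rw [Gamma0_mem, ModularGroup.coe_T_zpow]
    simp
  | some j =>
    simp only [R]
    rw [Gamma0_mem, mul_rep_inv_one_zero, Matrix.SpecialLinearGroup.coe_mul, coe_rep,
      ModularGroup.coe_T_zpow]
    simp [Matrix.mul_apply, Fin.sum_univ_two]

/-- Each conjugate is invariant under `T ^ p`. -/
theorem cj_slash_T_pow {k : ℤ} {h : ℍ → ℂ} (hinv : ∀ γ ∈ Gamma0 p, h ∣[k] γ = h)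
    (i : Option (Fin p)) : cj p k h i ∣[k] (ModularGroup.T ^ (p : ℤ)) = cj p k h i := by
  unfold cj
  rw [← SlashAction.slash_mul]
  have e : R p i * ModularGroup.T ^ (p : ℤ) =
      (R p i * ModularGroup.T ^ (p : ℤ) * (R p i)⁻¹) * R p i := by group
  rw [e, SlashAction.slash_mul, hinv _ (R_mul_T_pow_mem i)]

omit hp in
/-- A function invariant under `T ^ n` is `n`-periodic. -/
theorem periodic_of_slash_T_pow {k : ℤ} {F : ℍ → ℂ} {n : ℕ}
    (hF : F ∣[k] (ModularGroup.T ^ (n : ℤ)) = F) : Function.Periodic (F ∘ ofComplex) (n : ℝ) := by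
  have key : ∀ z : ℍ, F ((n : ℝ) +ᵥ z) = F z := by
    intro z
    have h1 := congrFun hF z
    rw [SL_slash_apply] at h1
    have hd := ModularGroup.denom_apply (ModularGroup.T ^ (n : ℤ)) z
    rw [ModularGroup.coe_T_zpow] at hd
    simp only [Matrix.of_apply, Matrix.cons_val_one, Matrix.cons_val_zero, Int.cast_zero,
      zero_mul, Int.cast_one, zero_add] at hd
    rw [hd, one_zpow, mul_one, UpperHalfPlane.modular_T_zpow_smul] at h1
    simpa using h1
  intro w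
  by_cases hw : 0 < w.im
  · have him : 0 < (w + (n : ℝ)).im := by simpa using hw
    simp only [Function.comp_apply, ofComplex_apply_of_im_pos him, ofComplex_apply_of_im_pos hw]
    rw [← key ⟨w, hw⟩]
    congr 1
    ext
    simp [add_comm]
  · have hw' : w.im ≤ 0 := not_lt.mp hw
    have him : (w + (n : ℝ)).im ≤ 0 := by simpa using hw'
    simp only [Function.comp_apply]
    rw [ofComplex_apply_of_im_nonpos him, ofComplex_apply_of_im_nonpos hw']

theorem periodic_cj {k : ℤ} {h : ℍ → ℂ} (hinv : ∀ γ ∈ Gamma0 p, h ∣[k] γ = h)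
    (i : Option (Fin p)) : Function.Periodic (cj p k h i ∘ ofComplex) (p : ℝ) :=
  periodic_of_slash_T_pow (cj_slash_T_pow hinv i)

theorem pos_p : (0 : ℝ) < (p : ℝ) := by exact_mod_cast hp.out.pos

/-- The cusp function of each conjugate of a modular form is analytic at `0`. -/
theorem analyticAt_cj {k : ℤ} (f : ModularForm (Gamma0 p) k) (i : Option (Fin p)) :
    AnalyticAt ℂ (cuspFunction (p : ℝ) (cj p k f i)) 0 :=
  analyticAt_cuspFunction_zero pos_p (periodic_cj (inv_form f) i) (mdiff_cj f.holo' i)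
    (bdd_cj_form f i)

/-- Each conjugate of a modular form is the sum of its `q_p`-expansion. -/
theorem hasSum_cj {k : ℤ} (f : ModularForm (Gamma0 p) k) (i : Option (Fin p)) (τ : ℍ) :
    HasSum (fun m : ℕ => (qExpansion (p : ℝ) (cj p k f i)).coeff m • 𝕢 (p : ℝ) τ ^ m)
      (cj p k f i τ) :=
  UpperHalfPlane.hasSum_qExpansion pos_p (periodic_cj (inv_form f) i) (mdiff_cj f.holo' i)
    (bdd_cj_form f i) τ

/-- The `q_p`-expansion of the norm is the product of the `q_p`-expansions of the conjugates. -/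
theorem qExpansion_prod_cj {k : ℤ} (f : ModularForm (Gamma0 p) k) :
    qExpansion (p : ℝ) (∏ i, cj p k f i) = ∏ i, qExpansion (p : ℝ) (cj p k f i) := by
  classical
  have key : ∀ s : Finset (Option (Fin p)),
      AnalyticAt ℂ (cuspFunction (p : ℝ) (∏ i ∈ s, cj p k f i)) 0 ∧
      qExpansion (p : ℝ) (∏ i ∈ s, cj p k f i) = ∏ i ∈ s, qExpansion (p : ℝ) (cj p k f i) := by
    intro s
    induction s using Finset.induction_on with
    | empty =>
      simp only [Finset.prod_empty]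
      refine ⟨?_, qExpansion_one _⟩
      have hc := analyticAt_cj (p := p) (ModularForm.const (1 : ℂ)) none
      rw [cj_none] at hc
      exact hc
    | insert a s ha ih =>
      rw [Finset.prod_insert ha, Finset.prod_insert ha]
      refine ⟨?_, ?_⟩
      · rw [cuspFunction_mul (analyticAt_cj f a).continuousAt ih.1.continuousAt]
        exact (analyticAt_cj f a).mul ih.1
      · rw [qExpansion_mul (analyticAt_cj f a) ih.1, ih.2]
  exact (key Finset.univ).2

omit hp in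
/-- Uniqueness of `q`-expansion coefficients (multiplicative form). -/
theorem coeff_unique' {h : ℝ} {F : ℍ → ℂ} {c : ℕ → ℂ} (hh : 0 < h)
    (ha : AnalyticAt ℂ (cuspFunction h F) 0)
    (hF : ∀ τ : ℍ, HasSum (fun m : ℕ => c m * 𝕢 h τ ^ m) (F τ)) (m : ℕ) :
    (qExpansion h F).coeff m = c m := by
  have hF' : ∀ τ : ℍ, HasSum (fun m : ℕ => c m • 𝕢 h τ ^ m) (F τ) := fun τ => by
    simpa only [smul_eq_mul] using hF τ
  have h1 := (hasFPowerSeriesOnBall_cuspFunction hh ha hF').hasFPowerSeriesAt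
  have h2 : HasFPowerSeriesAt (cuspFunction h F)
      (.ofScalars ℂ fun m ↦ (qExpansion h F).coeff m) 0 := by
    simpa [qExpansion_coeff, div_eq_mul_inv, mul_comm] using ha.hasFPowerSeriesAt
  have := congr_arg (FormalMultilinearSeries.coeff · m) (h1.eq_formalMultilinearSeries h2)
  simpa using this.symm

/-- `ζ_p = e^{2πi/p}`. -/
noncomputable def zeta (p : ℕ) : ℂ := Complex.exp (2 * Real.pi * Complex.I / p)

theorem qParam_heckeMatrix_smul (j : ℕ) (τ : ℍ) :
    𝕢 (1 : ℝ) ((heckeMatrix p j • τ : ℍ) : ℂ) = zeta p ^ j * 𝕢 (p : ℝ) τ := by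
  have hpc : (p : ℂ) ≠ 0 := by exact_mod_cast hp.out.ne_zero
  rw [coe_heckeMatrix_smul hp.out.ne_zero, Function.Periodic.qParam, Function.Periodic.qParam,
    zeta, ← Complex.exp_nat_mul, ← Complex.exp_add]
  congr 1
  push_cast
  field_simp
  ring

/-- **T1, `q`-expansion form**: the conjugate `f ∣ S T^j` of `f = ∑ aₙ qⁿ ∈ M₂(Γ₀(p))` is
`-p⁻¹ ∑ a_{pn} ζ^{jn} q_pⁿ`. -/
theorem hasSum_slash_rep (f : ModularForm (Gamma0 p) 2) (j : ℕ) (τ : ℍ) :
    HasSum (fun n : ℕ => -((p : ℂ)⁻¹ * (qExpansion 1 f).coeff (n * p) * zeta p ^ (j * n)) *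
        𝕢 (p : ℝ) τ ^ n) (((f : ℍ → ℂ) ∣[(2 : ℤ)] rep j) τ) := by
  have hp0 : p ≠ 0 := hp.out.ne_zero
  have hΓ := CongruenceSubgroup.one_mem_strictPeriods_Gamma0 p
  set g : ModularForm (Gamma0 p) 2 := ModularForm.heckeULin (N := p) 2 (dvd_refl p) f with hg
  have hs := UpperHalfPlane.hasSum_qExpansion (h := 1) one_pos
    (SlashInvariantFormClass.periodic_comp_ofComplex g hΓ) g.holo'
    (ModularFormClass.bdd_at_infty g) (heckeMatrix p j • τ)
  have hc : ∀ n, (qExpansion 1 ⇑g).coeff n = (qExpansion 1 f).coeff (n * p) := fun n =>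
    ModularFormClass.qCoeff_heckeU f hΓ hp0 n
  rw [slash_rep_apply]
  have h2 := hs.mul_left (-(p : ℂ)⁻¹)
  have hval : -((p : ℂ)⁻¹ * heckeU 2 p (⇑f) (heckeMatrix p j • τ)) =
      -(p : ℂ)⁻¹ * g (heckeMatrix p j • τ) := by
    rw [hg, ModularForm.heckeULin_apply_apply]
    ring
  have hfun : (fun n : ℕ => -((p : ℂ)⁻¹ * (qExpansion 1 f).coeff (n * p) * zeta p ^ (j * n)) *
      𝕢 (p : ℝ) τ ^ n) = fun i : ℕ => -(p : ℂ)⁻¹ * ((qExpansion 1 ⇑g).coeff i •
        𝕢 (1 : ℝ) ((heckeMatrix p j • τ : ℍ) : ℂ) ^ i) := by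
    funext n
    rw [hc, qParam_heckeMatrix_smul, smul_eq_mul, mul_pow, pow_mul]
    ring
  rw [hval, hfun]
  exact h2

/-- The `q_p`-expansion coefficients of the conjugates at the cusp `0` (weight two). -/
theorem qExpansion_slash_rep_coeff (f : ModularForm (Gamma0 p) 2) (j : Fin p) (n : ℕ) :
    (qExpansion (p : ℝ) ((f : ℍ → ℂ) ∣[(2 : ℤ)] rep j)).coeff n =
      -((p : ℂ)⁻¹ * (qExpansion 1 f).coeff (n * p) * zeta p ^ ((j : ℕ) * n)) := by
  have ha := analyticAt_cj f (some j)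
  rw [cj_some] at ha
  exact coeff_unique' pos_p ha
    (c := fun n => -((p : ℂ)⁻¹ * (qExpansion 1 f).coeff (n * p) * zeta p ^ ((j : ℕ) * n)))
    (fun τ => hasSum_slash_rep f j τ) n

/-- Change of width: the `q_p`-expansion of a `1`-periodic function. -/
theorem qExpansion_width_coeff {F : ℍ → ℂ} (hper : Function.Periodic (F ∘ ofComplex) 1)
    (hhol : MDiff F) (hbdd : IsBoundedAtImInfty F) (n : ℕ) :
    (qExpansion (p : ℝ) F).coeff n = if p ∣ n then (qExpansion 1 F).coeff (n / p) else 0 := by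
  have hp0 : p ≠ 0 := hp.out.ne_zero
  have hperp : Function.Periodic (F ∘ ofComplex) (p : ℝ) := by
    have := hper.nat_mul p
    simpa using this
  have ha := analyticAt_cuspFunction_zero pos_p hperp hhol hbdd
  refine coeff_unique' pos_p ha
    (c := fun n => if p ∣ n then (qExpansion 1 F).coeff (n / p) else 0) (fun τ => ?_) n
  have hs := UpperHalfPlane.hasSum_qExpansion (h := 1) one_pos hper hhol hbdd τ
  have hq : 𝕢 (1 : ℝ) τ = 𝕢 (p : ℝ) τ ^ p := by
    have hpc : (p : ℂ) ≠ 0 := by exact_mod_cast hp0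
    rw [Function.Periodic.qParam, Function.Periodic.qParam, ← Complex.exp_nat_mul]
    congr 1
    push_cast
    field_simp
  have hinj : Function.Injective (fun m : ℕ => p * m) := fun a b hab =>
    Nat.eq_of_mul_eq_mul_left hp.out.pos hab
  rw [← hinj.hasSum_iff]
  · have hfun : ((fun m : ℕ => (if p ∣ m then (qExpansion 1 F).coeff (m / p) else 0) *
        𝕢 (p : ℝ) τ ^ m) ∘ fun m : ℕ => p * m) =
        fun m : ℕ => (qExpansion 1 F).coeff m • 𝕢 (1 : ℝ) τ ^ m := by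
      funext m
      simp only [Function.comp_apply, dvd_mul_right, if_true,
        Nat.mul_div_cancel_left m hp.out.pos]
      rw [hq, ← pow_mul, smul_eq_mul]
    rw [hfun]
    exact hs
  · intro x hx
    have hx' : ¬ p ∣ x := fun ⟨m, hm⟩ => hx ⟨m, hm.symm⟩
    simp [hx']

/-- The `q_p`-expansion of a form on `Γ₀(p)` itself. -/
theorem qExpansion_cj_none_coeff {k : ℤ} (f : ModularForm (Gamma0 p) k) (n : ℕ) :
    (qExpansion (p : ℝ) (cj p k f none)).coeff n =
      if p ∣ n then (qExpansion 1 f).coeff (n / p) else 0 := by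
  rw [cj_none]
  exact qExpansion_width_coeff
    (SlashInvariantFormClass.periodic_comp_ofComplex f
      (CongruenceSubgroup.one_mem_strictPeriods_Gamma0 p)) f.holo'
    (ModularFormClass.bdd_at_infty f) n

theorem qExpansion_cj_some_coeff (f : ModularForm (Gamma0 p) 2) (j : Fin p) (n : ℕ) :
    (qExpansion (p : ℝ) (cj p 2 f (some j))).coeff n =
      -((p : ℂ)⁻¹ * (qExpansion 1 f).coeff (n * p) * zeta p ^ ((j : ℕ) * n)) :=
  qExpansion_slash_rep_coeff f j n

end Fermat.Agent.S16.ConjQ
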