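import Mathlib
import Fermat.Agent.S22.DeltaInt
import Fermat.Agent.Lib.LevelOneE4E6

/-!
# Level one: a "Sturm bound" for arbitrary additive subgroups of `ℂ`

Let `A` be an additive subgroup of `ℂ` (for instance `ℓ • O` for a subring `O`, an ideal of a
subring, a subring itself, ...).  If the first `⌊k / 12⌋ + 1` coefficients of the `q`-expansion of
a level-one modular form of weight `k` lie in `A`, then all of them do
(`Fermat.Agent.S16.LevelOneSturm.coeff_mem_of_low`).

The proof is the usual triangular-basis induction `f = a₀ E₄^a E₆^b + Δ f₁`; it only uses that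
`E₄`, `E₆`, `Δ` have integral `q`-expansions and that `Δ = q + ⋯`.

Corollary (`false_of_order_gt`): a level-one form of weight `k < 12 m` cannot have its first `m`
coefficients in `A` and the `m`-th one outside `A` ("a nonzero form mod `A` has `q`-order at most
`k / 12`").
-/

set_option autoImplicit false

open UpperHalfPlane ModularForm ModularFormClass EisensteinSeries
open scoped MatrixGroups ModularForm

namespace Fermat.Agent.S16.LevelOneSturm

open Fermat.Agent.S22.DeltaInt Fermat.Agent.Lib.LevelOneE4E6

/-- Multiplying a power series with coefficients in `A` by an integral power series keeps the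
coefficients in `A`. -/
theorem coeff_map_mul_mem (A : AddSubgroup ℂ) (x : PowerSeries ℤ) (y : PowerSeries ℂ)
    (hy : ∀ n, y.coeff n ∈ A) (n : ℕ) :
    (PowerSeries.map (Int.castRingHom ℂ) x * y).coeff n ∈ A := by
  rw [PowerSeries.coeff_mul]
  refine A.sum_mem fun ij _ => ?_
  rw [PowerSeries.coeff_map, eq_intCast, ← zsmul_eq_mul]
  exact A.zsmul_mem (hy _) _

/-- The integral power series whose image is the `q`-expansion of `E₄ ^ a * E₆ ^ b`. -/
noncomputable def monoInt (a b : ℕ) : PowerSeries ℤ :=
  (1 + 240 * sA) ^ a * (1 - 504 * sB) ^ b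

theorem qExpansion_monoForm_eq_map (k : ℤ) (a b : ℕ) (h : 4 * (a : ℤ) + 6 * (b : ℤ) = k) :
    qExpansion 1 (monoForm k a b h) = PowerSeries.map (Int.castRingHom ℂ) (monoInt a b) := by
  rw [qExpansion_monoForm, qExpansion_E4, qExpansion_E6, monoInt]
  simp only [map_mul, map_pow, map_add, map_sub, map_one, map_ofNat]

theorem deltaInt_coeff_zero : deltaInt.coeff 0 = 0 := by
  have h : (qExpansion 1 ModularForm.discriminant).coeff 0 = 0 := by
    simpa using CuspFormClass.qExpansion_coeff_zero CuspForm.discriminant one_pos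
      one_mem_strictPeriods_SL
  rw [qExpansion_discriminant_eq_map, PowerSeries.coeff_map, eq_intCast] at h
  exact_mod_cast h

theorem deltaInt_coeff_one : deltaInt.coeff 1 = 1 := by
  have h : (qExpansion 1 ModularForm.discriminant).coeff 1 = 1 :=
    discriminant_qExpansion_coeff_one
  rw [qExpansion_discriminant_eq_map, PowerSeries.coeff_map, eq_intCast] at h
  exact_mod_cast h

/-- Division by `Δ`: if the coefficients of `Δ * y` of index `≤ N + 1` lie in `A`, then the
coefficients of `y` of index `≤ N` lie in `A`. -/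
theorem coeff_mem_of_delta_mul (A : AddSubgroup ℂ) (y : PowerSeries ℂ) (N : ℕ)
    (h : ∀ n ≤ N + 1, (PowerSeries.map (Int.castRingHom ℂ) deltaInt * y).coeff n ∈ A) :
    ∀ n ≤ N, y.coeff n ∈ A := by
  intro n
  induction n using Nat.strong_induction_on with
  | _ n ih =>
    intro hn
    have h1 := h (n + 1) (by omega)
    rw [PowerSeries.coeff_mul, Finset.Nat.sum_antidiagonal_eq_sum_range_succ_mk,
      Finset.sum_range_succ', Finset.sum_range_succ'] at h1
    simp only [PowerSeries.coeff_map, eq_intCast, deltaInt_coeff_zero, deltaInt_coeff_one,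
      Int.cast_zero, Int.cast_one, zero_mul, add_zero, one_mul, zero_add,
      Nat.add_sub_cancel] at h1
    have h2 : ∑ i ∈ Finset.range n, ((deltaInt.coeff (i + 1 + 1) : ℤ) : ℂ) *
        y.coeff (n + 1 - (i + 1 + 1)) ∈ A := by
      refine A.sum_mem fun i hi => ?_
      rw [← zsmul_eq_mul]
      refine A.zsmul_mem (ih _ ?_ ?_) _
      · have := Finset.mem_range.mp hi; omega
      · omega
    have h3 := A.sub_mem h1 h2
    simpa using h3

/-- Auxiliary statement for the induction: all weights `< n`. -/
theorem coeff_mem_of_low_aux (A : AddSubgroup ℂ) (n : ℕ) :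
    ∀ k : ℤ, k < n → ∀ c : ModularForm 𝒮ℒ k,
      (∀ m : ℕ, (12 * m : ℤ) ≤ k → (qExpansion 1 c).coeff m ∈ A) →
      ∀ m : ℕ, (qExpansion 1 c).coeff m ∈ A := by
  have hzero : ∀ {k : ℤ} (c : ModularForm 𝒮ℒ k), (c : ℍ → ℂ) = 0 →
      ∀ m : ℕ, (qExpansion 1 c).coeff m ∈ A := by
    intro k c hc m
    rw [hc, qExpansion_zero]
    simp
  induction n with
  | zero =>
    intro k hk c _
    exact hzero c (levelOne_neg_weight_eq_zero (by simpa using hk) c)
  | succ n ih =>
    intro k hk c hlow
    rcases lt_or_ge k n with hlt | hge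
    · exact ih k hlt c hlow
    obtain rfl : k = (n : ℤ) := by push_cast at hk; omega
    -- odd weight
    rcases Nat.even_or_odd n with hev | hodd
    swap
    · have : c = 0 := levelOne_odd_weight_eq_zero (by exact_mod_cast hodd) c
      exact hzero c (by rw [this, FunLike.coe_zero])
    -- weight `0`
    rcases Nat.eq_zero_or_pos n with rfl | hpos
    · obtain ⟨a, ha⟩ := levelOne_weight_zero_const c
      have hc : (c : ℍ → ℂ) = (a • (1 : ModularForm 𝒮ℒ 0) : ModularForm 𝒮ℒ 0) := by
        rw [ha]; ext z; simp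
      have hq : qExpansion 1 c = a • (1 : PowerSeries ℂ) := by
        rw [hc, FunLike.coe_smul, ModularForm.qExpansion_smul one_pos one_mem_strictPeriods_SL,
          ModularForm.qExpansion_one]
      have h0 := hlow 0 (by simp)
      intro m
      rcases Nat.eq_zero_or_pos m with rfl | hm
      · exact h0
      · rw [hq, PowerSeries.coeff_smul, PowerSeries.coeff_one, if_neg (by omega)]
        simp
    -- weight `2`
    rcases Nat.lt_or_ge n 3 with h3 | h3
    · obtain rfl : n = 2 := by
        rcases hev with ⟨m, rfl⟩; omega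
      have : c = 0 := rank_zero_iff_forall_zero.mp levelOne_weight_two_rank_zero c
      exact hzero c (by rw [this, FunLike.coe_zero])
    -- even weight `≥ 4`
    obtain ⟨a, b, hab⟩ : ∃ a b : ℕ, 4 * (a : ℤ) + 6 * (b : ℤ) = (n : ℤ) := by
      obtain ⟨m, rfl⟩ := hev
      rcases Nat.even_or_odd m with ⟨j, rfl⟩ | ⟨j, rfl⟩
      · exact ⟨j, 0, by push_cast; ring⟩
      · exact ⟨j - 1, 1, by push_cast; omega⟩
    set a₀ : ℂ := (qExpansion 1 c).coeff 0 with ha₀
    have ha₀A : a₀ ∈ A := hlow 0 (by positivity)
    set g : ModularForm 𝒮ℒ (n : ℤ) := c - a₀ • monoForm n a b hab with hg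
    have hM0 : (qExpansion 1 (monoForm n a b hab)).coeff 0 = 1 :=
      qExpansion_monoForm_coeff_zero n a b hab
    have hgq : qExpansion 1 g = qExpansion 1 c - a₀ • qExpansion 1 (monoForm n a b hab) := by
      rw [hg, FunLike.coe_sub, ModularForm.qExpansion_sub one_pos one_mem_strictPeriods_SL,
        FunLike.coe_smul, ModularForm.qExpansion_smul one_pos one_mem_strictPeriods_SL]
    have hg0 : (qExpansion 1 g).coeff 0 = 0 := by
      rw [hgq, map_sub, PowerSeries.coeff_smul, hM0, smul_eq_mul, mul_one, ha₀, sub_self]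
    have hfac := qExpansion_eq_qExpansion_discriminant_mul g hg0
    set c₁ : ModularForm 𝒮ℒ ((n : ℤ) - 12) := CuspForm.discriminantEquiv (toCuspForm g hg0)
      with hc₁
    -- coefficients of the monomial are integers
    have hmono : ∀ m : ℕ, (a₀ • qExpansion 1 (monoForm n a b hab)).coeff m ∈ A := by
      intro m
      rw [PowerSeries.coeff_smul, qExpansion_monoForm_eq_map, PowerSeries.coeff_map, eq_intCast,
        smul_eq_mul, mul_comm, ← zsmul_eq_mul]
      exact A.zsmul_mem ha₀A _
    -- low coefficients of `g`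
    have hglow : ∀ m : ℕ, (12 * m : ℤ) ≤ n → (qExpansion 1 g).coeff m ∈ A := by
      intro m hm
      rw [hgq, map_sub]
      exact A.sub_mem (hlow m hm) (hmono m)
    rw [qExpansion_discriminant_eq_map] at hfac
    -- low coefficients of `c₁`
    have hc₁low : ∀ m : ℕ, (12 * m : ℤ) ≤ (n : ℤ) - 12 → (qExpansion 1 c₁).coeff m ∈ A := by
      intro m hm
      refine coeff_mem_of_delta_mul A (qExpansion 1 c₁) m (fun j hj => ?_) m le_rfl
      rw [← hfac]
      exact hglow j (by omega)
    have hc₁all : ∀ m : ℕ, (qExpansion 1 c₁).coeff m ∈ A :=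
      ih ((n : ℤ) - 12) (by omega) c₁ hc₁low
    intro m
    have hcq : qExpansion 1 c = qExpansion 1 g + a₀ • qExpansion 1 (monoForm n a b hab) := by
      rw [hgq]; ring
    rw [hcq, map_add, hfac]
    exact A.add_mem (coeff_map_mul_mem A deltaInt _ hc₁all m) (hmono m)

/-- **Sturm bound at level one for an arbitrary additive subgroup `A ⊆ ℂ`.**  If the coefficients
`aₘ` of the `q`-expansion of a level-one form of weight `k` lie in `A` for all `m ≤ k / 12`, then
all coefficients lie in `A`. -/
theorem coeff_mem_of_low (A : AddSubgroup ℂ) {k : ℤ} (f : ModularForm 𝒮ℒ k)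
    (h : ∀ m : ℕ, (12 * m : ℤ) ≤ k → (qExpansion 1 f).coeff m ∈ A) :
    ∀ m : ℕ, (qExpansion 1 f).coeff m ∈ A :=
  coeff_mem_of_low_aux A (k.toNat + 1) k (by omega) f h

/-- **`q`-order bound modulo `A`.**  A level-one form of weight `k < 12 m` cannot have its first
`m` coefficients in `A` and its `m`-th coefficient outside `A`. -/
theorem false_of_order_gt (A : AddSubgroup ℂ) {k : ℤ} (f : ModularForm 𝒮ℒ k) (m : ℕ)
    (hm : k < 12 * m) (hlow : ∀ n < m, (qExpansion 1 f).coeff n ∈ A)
    (hm' : (qExpansion 1 f).coeff m ∉ A) : False :=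
  hm' (coeff_mem_of_low A f (fun n hn => hlow n (by omega)) m)

end Fermat.Agent.S16.LevelOneSturm
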