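import Fermat.Statements.S16

/-!
# S16 (Mazur: `#(T/I) = (p-1)/gcd(p-1,12)`) — interface definitions

All sub-projects of S16 are stated against the predicates of this file.

* `sigmaP p n`      : the sum of the divisors of `n` prime to `p` (`σ'(n)`).
* `eisEval p`       : the Eisenstein character `ℤ[X_ℓ] → ℤ`, `X_ℓ ↦ 1 + ℓ (ℓ ≠ p)`, `X_p ↦ 1`.
* `EisLift p m`     : there is a weight-2 cusp form on `Γ₀(p)` with integral `q`-expansion which is
                      congruent to `E' = ∑ σ'(n) qⁿ` modulo `m`.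
* `OneMod p M`      : "`1` is a weight-2 modular form on `Γ₀(p)` modulo `M`": there is
                      `G ∈ M₂(Γ₀(p))` with `q`-expansion in `1 + M ℤ[[q]]`.
* `LowerBound p`    : every Hecke polynomial killing `S₂(Γ₀(p))` has Eisenstein value divisible by
                      `n = eisensteinNumerator p`.
-/

set_option autoImplicit false

open ModularCurve CuspForm

namespace Fermat.Agent.S16

/-- `σ'(n)`: the sum of the divisors of `n` which are prime to `p`. -/
def sigmaP (p n : ℕ) : ℤ := ∑ d ∈ n.divisors with ¬ p ∣ d, (d : ℤ)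

/-- The Eisenstein character of the abstract Hecke algebra. -/
noncomputable def eisEval (p : ℕ) : HeckeAlg →+* ℤ :=
  (MvPolynomial.aeval (R := ℤ) (eisensteinSystem p)).toRingHom

theorem eisensteinIdeal_eq_ker (p : ℕ) : eisensteinIdeal p = RingHom.ker (eisEval p) := rfl

/-- There is a cusp form of weight 2 on `Γ₀(p)` with integral `q`-expansion, congruent to the
Eisenstein series `E' = ∑_{n ≥ 1} σ'(n) qⁿ` modulo `m`. -/
def EisLift (p m : ℕ) : Prop :=
  ∃ f : CuspForm (CongruenceSubgroup.Gamma0 p) 2,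
    (∀ k : ℕ, ∃ a : ℤ, ModularFormClass.qCoeff f k = (a : ℂ)) ∧
    ∀ k : ℕ, 1 ≤ k → ∃ b : ℤ, ModularFormClass.qCoeff f k = (sigmaP p k : ℂ) + (m : ℂ) * (b : ℂ)

/-- "`1` is a modular form of weight 2 on `Γ₀(p)` modulo `M`": there is `G ∈ M₂(Γ₀(p))` whose
`q`-expansion lies in `1 + M ℤ[[q]]`. -/
def OneMod (p M : ℕ) : Prop :=
  ∃ G : ModularForm (CongruenceSubgroup.Gamma0 p) 2,
    ∀ k : ℕ, ∃ b : ℤ,
      ModularFormClass.qCoeff G k = (if k = 0 then (1 : ℂ) else 0) + (M : ℂ) * (b : ℂ)

/-- Lower bound `n ∣ #(T/I)`, in the form: every Hecke polynomial that acts as zero on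
`S₂(Γ₀(p))` has Eisenstein value divisible by `n = eisensteinNumerator p`. -/
def LowerBound (p : ℕ) [NeZero p] : Prop :=
  ∀ P : HeckeAlg, heckeEvalForms p 2 P = 0 → (eisensteinNumerator p : ℤ) ∣ eisEval p P

/-- Upper bound `#(T/I) ∣ n`, in dual form. -/
def UpperBound (p : ℕ) : Prop :=
  ∀ m : ℕ, 0 < m → EisLift p m → m ∣ eisensteinNumerator p

end Fermat.Agent.S16
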