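import Mathlib
import Fermat.Agent.S16.Defs

/-!
# S16 — the "TraceQ" interface (statements only)

For `G ∈ M₂(Γ₀(p))` with `q`-expansion `g`, all non-existence proofs of S16 consume the following
three facts, which come from "trace/norm to level one" (`Tr G ∈ M₂(SL₂ℤ) = 0`, hence
`G|W_p = -U_p G` and the conjugates of `G` are `z ↦ -p⁻¹ (U_p G)((z + j)/p)`).

* `TraceT1 p G`   : `U_p (U_p g) = g`.
* `TracePow p G`  : for `k ≥ 1`, `g^k + (-1)^k p^(1-k) U_p((U_p g)^k)` is the `q`-expansion of a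
                    level-one form of weight `2k` (it is `Tr (G^k)`).
* `TraceNorm p G` : for an isobaric polynomial `Φ(x₂, x₄, x₆)` of weight `w`, the norm of
                    `Φ(G, E₄, E₆)` is a level-one form `N` of weight `w (p+1)` with
                    `N(q^p) = Φ(g(q^p), e₄(q^p), e₆(q^p)) * ∏_{j<p} Φ(conjQ j, e₄(q^p), e₆(q^p))`.

The operators: `Up p` (coefficients `a_n ↦ a_{pn}`), `PowerSeries.expand p _` (`q ↦ q^p`,
Mathlib), `conjQ p g j = ∑ -(1/p) ζ^(jn) a_{pn} qⁿ`, `ζ = exp(2πi/p)` (the `q`-expansion of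
`z ↦ (G|ST^j)(pz)`).

Owners prove `∀ G, TraceT1 p G` etc.; consumers take them as hypotheses.
-/

set_option autoImplicit false

open UpperHalfPlane ModularForm ModularFormClass EisensteinSeries
open scoped MatrixGroups ModularForm

namespace Fermat.Agent.S16

/-- `U_p` on power series: `∑ aₙ qⁿ ↦ ∑ a_{pn} qⁿ`. -/
noncomputable def Up (p : ℕ) {R : Type*} [Semiring R] (f : PowerSeries R) : PowerSeries R :=
  PowerSeries.mk fun n => PowerSeries.coeff (p * n) f

@[simp] theorem coeff_Up (p : ℕ) {R : Type*} [Semiring R] (f : PowerSeries R) (n : ℕ) :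
    PowerSeries.coeff n (Up p f) = PowerSeries.coeff (p * n) f :=
  PowerSeries.coeff_mk _ _

/-- The `q`-expansion of `z ↦ (G|ST^j)(pz)` for `G ∈ M₂(Γ₀(p))` with `q`-expansion `g`:
`-(1/p) ∑ ζ^(jn) a_{pn} qⁿ`, `ζ = exp(2πi/p)`. -/
noncomputable def conjQ (p : ℕ) (g : PowerSeries ℂ) (j : ℕ) : PowerSeries ℂ :=
  PowerSeries.mk fun n =>
    -(1 / (p : ℂ)) * Complex.exp (2 * Real.pi * Complex.I * (j : ℂ) * (n : ℂ) / (p : ℂ)) *
      PowerSeries.coeff (p * n) g

@[simp] theorem coeff_conjQ (p : ℕ) (g : PowerSeries ℂ) (j n : ℕ) :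
    PowerSeries.coeff n (conjQ p g j) =
      -(1 / (p : ℂ)) * Complex.exp (2 * Real.pi * Complex.I * (j : ℂ) * (n : ℂ) / (p : ℂ)) *
        PowerSeries.coeff (p * n) g :=
  PowerSeries.coeff_mk _ _

/-- `U_p² = 1` on `M₂(Γ₀(p))` (at the level of `q`-expansions). -/
def TraceT1 (p : ℕ) (G : ModularForm (CongruenceSubgroup.Gamma0 p) 2) : Prop :=
  Up p (Up p (qExpansion 1 G)) = qExpansion 1 G

/-- `Tr (G^k)` is a level-one form of weight `2k` with the expected `q`-expansion. -/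
def TracePow (p : ℕ) (G : ModularForm (CongruenceSubgroup.Gamma0 p) 2) : Prop :=
  ∀ k : ℕ, 1 ≤ k → ∃ F : ModularForm 𝒮ℒ ((2 * k : ℕ) : ℤ),
    qExpansion 1 F = qExpansion 1 G ^ k +
      ((-1 : ℂ) ^ k * (p : ℂ) ^ (1 - (k : ℤ))) • Up p (Up p (qExpansion 1 G) ^ k)

/-- The norm of `Φ(G, E₄, E₆)` (`Φ` isobaric of weight `w`, variables of weights `2, 4, 6`) is a
level-one form of weight `w (p+1)` whose `q`-expansion, after `q ↦ q^p`, is the product of the
`q`-expansions of the `p + 1` conjugates. -/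
def TraceNorm (p : ℕ) (hp : p ≠ 0) (G : ModularForm (CongruenceSubgroup.Gamma0 p) 2) : Prop :=
  ∀ (w : ℕ) (Φ : MvPolynomial (Fin 3) ℂ),
    MvPolynomial.IsWeightedHomogeneous (![2, 4, 6] : Fin 3 → ℕ) Φ w →
    ∃ N : ModularForm 𝒮ℒ ((w * (p + 1) : ℕ) : ℤ),
      PowerSeries.expand p hp (qExpansion 1 N) =
        MvPolynomial.aeval
            (![PowerSeries.expand p hp (qExpansion 1 G), PowerSeries.expand p hp (qExpansion 1 E₄),
              PowerSeries.expand p hp (qExpansion 1 E₆)] : Fin 3 → PowerSeries ℂ) Φ *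
          ∏ j ∈ Finset.range p,
            MvPolynomial.aeval
              (![conjQ p (qExpansion 1 G) j, PowerSeries.expand p hp (qExpansion 1 E₄),
                PowerSeries.expand p hp (qExpansion 1 E₆)] : Fin 3 → PowerSeries ℂ) Φ

/-- The ring of complex numbers integral at `ℓ`: `x` such that `m • x` is an algebraic integer for
some `m` prime to `ℓ`. -/
def IsIntAt (ℓ : ℕ) (x : ℂ) : Prop := ∃ m : ℕ, ¬ ℓ ∣ m ∧ IsIntegral ℤ ((m : ℂ) * x)

end Fermat.Agent.S16
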