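import Fermat.Agent.S16.TraceQ
import Fermat.Agent.S16.TraceDefs
import Fermat.Agent.S16.LevelOneSturm

/-!
# S16: the `TraceDefs` interface is inhabited

`Fermat.Agent.S16.TraceT1`, `TracePow`, `TraceNorm` (the statement-only interface of
`TraceDefs.lean`) are proved here from `TraceQ.lean`, together with the bilinear trace identities
`TRACE2` (`Tr (G H)` in weight four) and `traceZero` (`Tr (G g) = 0` for a cusp form `g`).
-/

set_option autoImplicit false

namespace Fermat.Agent.S16.TraceBridge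

open UpperHalfPlane ModularForm Matrix.SpecialLinearGroup CongruenceSubgroup Filter
open scoped MatrixGroups Manifold ModularForm Topology

open Fermat.Agent.S16.ConjQ

theorem Up_eq (p : ℕ) {R : Type*} [Semiring R] (g : PowerSeries R) :
    Fermat.Agent.S16.Up p g = TraceQ.Up p g := rfl

theorem conjQ_eq (p : ℕ) (g : PowerSeries ℂ) (j : ℕ) :
    Fermat.Agent.S16.conjQ p g j = TraceQ.conjQ p g j := by
  ext n
  rw [Fermat.Agent.S16.coeff_conjQ, TraceQ.coeff_conjQ, zeta, ← Complex.exp_nat_mul]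
  have e : (2 * (Real.pi : ℂ) * Complex.I * (j : ℂ) * (n : ℂ) / (p : ℂ)) =
      ((j * n : ℕ) : ℂ) * (2 * (Real.pi : ℂ) * Complex.I / (p : ℂ)) := by
    push_cast
    ring
  rw [e]
  ring

variable {p : ℕ} [hp : Fact p.Prime]

/-- `TraceT1` holds. -/
theorem traceT1 (G : ModularForm (Gamma0 p) 2) : Fermat.Agent.S16.TraceT1 p G :=
  TraceQ.T1 G

/-- `TracePow` holds. -/
theorem tracePow (G : ModularForm (Gamma0 p) 2) : Fermat.Agent.S16.TracePow p G := by
  intro k _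
  obtain ⟨F, hF⟩ := TraceQ.POW G k
  refine ⟨ModularForm.mcast (by push_cast; ring) F, ?_⟩
  have hF' : qExpansion 1 (ModularForm.mcast (by push_cast; ring) F :
      ModularForm 𝒮ℒ ((2 * k : ℕ) : ℤ)) = qExpansion 1 F := rfl
  rw [hF', hF]
  have hp0 : (p : ℂ) ≠ 0 := by exact_mod_cast hp.out.ne_zero
  have e : (p : ℂ) ^ (1 - (k : ℤ)) = (p : ℂ) * ((p : ℂ)⁻¹) ^ k := by
    rw [zpow_sub₀ hp0, zpow_one, zpow_natCast, div_eq_mul_inv, inv_pow]
  rw [e, mul_assoc]
  rfl

/-- `TraceNorm` holds. -/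
theorem traceNorm (G : ModularForm (Gamma0 p) 2) :
    Fermat.Agent.S16.TraceNorm p hp.out.ne_zero G := by
  intro w Φ hΦ
  obtain ⟨N, hN⟩ := TraceQ.NORM G w Φ hΦ
  refine ⟨ModularForm.mcast (by push_cast; ring) N, ?_⟩
  have hN' : qExpansion 1 (ModularForm.mcast (by push_cast; ring) N :
      ModularForm 𝒮ℒ ((w * (p + 1) : ℕ) : ℤ)) = qExpansion 1 N := rfl
  rw [hN', hN]
  simp_rw [conjQ_eq]

/-! ### Bilinear trace in weight four -/

omit hp in
theorem Up_add (g h : PowerSeries ℂ) : TraceQ.Up p (g + h) = TraceQ.Up p g + TraceQ.Up p h := by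
  ext n
  simp [TraceQ.coeff_Up]

omit hp in
theorem Up_sub (g h : PowerSeries ℂ) : TraceQ.Up p (g - h) = TraceQ.Up p g - TraceQ.Up p h := by
  ext n
  simp [TraceQ.coeff_Up]

omit hp in
theorem Up_smul (c : ℂ) (g : PowerSeries ℂ) : TraceQ.Up p (c • g) = c • TraceQ.Up p g := by
  ext n
  simp [TraceQ.coeff_Up]

omit hp in
theorem qExpansion_add_form (G H : ModularForm (Gamma0 p) 2) :
    qExpansion 1 (⇑(G + H)) = qExpansion 1 G + qExpansion 1 H := by
  have hΓ := CongruenceSubgroup.one_mem_strictPeriods_Gamma0 p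
  rw [FunLike.coe_add]
  exact qExpansion_add (ModularFormClass.analyticAt_cuspFunction_zero G one_pos hΓ)
    (ModularFormClass.analyticAt_cuspFunction_zero H one_pos hΓ)

/-- `POW` with `k = 2`, in weight `4`. -/
theorem POW2 (G : ModularForm (Gamma0 p) 2) :
    ∃ F : ModularForm 𝒮ℒ 4, qExpansion 1 F =
      qExpansion 1 G ^ 2 + (p : ℂ)⁻¹ • TraceQ.Up p (TraceQ.Up p (qExpansion 1 G) ^ 2) := by
  obtain ⟨F, hF⟩ := TraceQ.POW G 2
  refine ⟨ModularForm.mcast (by norm_num) F, ?_⟩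
  have hF' : qExpansion 1 (ModularForm.mcast (by norm_num) F : ModularForm 𝒮ℒ 4) =
      qExpansion 1 F := rfl
  rw [hF', hF]
  have hp0 : (p : ℂ) ≠ 0 := by exact_mod_cast hp.out.ne_zero
  have e : ((-1 : ℂ) ^ 2 * (p : ℂ) * ((p : ℂ)⁻¹) ^ 2) = (p : ℂ)⁻¹ := by
    field_simp
  rw [e]

/-- **TRACE2**: `Tr (G H)` for `G, H ∈ M₂(Γ₀(p))`: the series `g h + p⁻¹ U_p (U_p g · U_p h)` is
the `q`-expansion of a level-one form of weight four. -/
theorem TRACE2 (G H : ModularForm (Gamma0 p) 2) :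
    ∃ F : ModularForm 𝒮ℒ 4, qExpansion 1 F =
      qExpansion 1 G * qExpansion 1 H +
        (p : ℂ)⁻¹ • TraceQ.Up p (TraceQ.Up p (qExpansion 1 G) * TraceQ.Up p (qExpansion 1 H)) := by
  obtain ⟨F1, h1⟩ := POW2 (G + H)
  obtain ⟨F2, h2⟩ := POW2 G
  obtain ⟨F3, h3⟩ := POW2 H
  refine ⟨(1 / 2 : ℂ) • (F1 - F2 - F3), ?_⟩
  have hS := one_mem_strictPeriods_SL
  have a1 := ModularFormClass.analyticAt_cuspFunction_zero F1 one_pos hS
  have a2 := ModularFormClass.analyticAt_cuspFunction_zero F2 one_pos hS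
  have a3 := ModularFormClass.analyticAt_cuspFunction_zero F3 one_pos hS
  have a12 := ModularFormClass.analyticAt_cuspFunction_zero (F1 - F2) one_pos hS
  have a123 := ModularFormClass.analyticAt_cuspFunction_zero (F1 - F2 - F3) one_pos hS
  have e1 : qExpansion 1 (⇑((1 / 2 : ℂ) • (F1 - F2 - F3))) =
      (1 / 2 : ℂ) • (qExpansion 1 F1 - qExpansion 1 F2 - qExpansion 1 F3) := by
    have c1 : (⇑((1 / 2 : ℂ) • (F1 - F2 - F3)) : ℍ → ℂ) = (1 / 2 : ℂ) • ⇑(F1 - F2 - F3) := rfl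
    have c2 : (⇑(F1 - F2 - F3) : ℍ → ℂ) = ⇑(F1 - F2) - ⇑F3 := rfl
    have c3 : (⇑(F1 - F2) : ℍ → ℂ) = ⇑F1 - ⇑F2 := rfl
    rw [c1, qExpansion_smul a123, c2, qExpansion_sub a12 a3, c3, qExpansion_sub a1 a2]
  rw [e1, h1, h2, h3, qExpansion_add_form, Up_add]
  have e2 : (TraceQ.Up p (qExpansion 1 G) + TraceQ.Up p (qExpansion 1 H)) ^ 2 =
      TraceQ.Up p (qExpansion 1 G) ^ 2 + TraceQ.Up p (qExpansion 1 H) ^ 2 +
        (2 : ℂ) • (TraceQ.Up p (qExpansion 1 G) * TraceQ.Up p (qExpansion 1 H)) := by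
    rw [two_smul]
    ring
  rw [e2, Up_add, Up_add, Up_smul]
  set A := qExpansion 1 G
  set B := qExpansion 1 H
  set X := TraceQ.Up p (TraceQ.Up p A ^ 2)
  set Y := TraceQ.Up p (TraceQ.Up p B ^ 2)
  set Z := TraceQ.Up p (TraceQ.Up p A * TraceQ.Up p B)
  ext n
  simp only [map_add, map_sub, PowerSeries.coeff_smul, smul_eq_mul]
  have e3 : PowerSeries.coeff n ((A + B) ^ 2) =
      PowerSeries.coeff n (A ^ 2) + PowerSeries.coeff n (B ^ 2) +
        2 * PowerSeries.coeff n (A * B) := by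
    have : (A + B) ^ 2 = A ^ 2 + B ^ 2 + (2 : ℂ) • (A * B) := by
      rw [two_smul]
      ring
    rw [this]
    simp only [map_add, PowerSeries.coeff_smul, smul_eq_mul]
  rw [e3]
  ring

/-- **Trace zero in weight four**: `Tr (G g) = 0` for a cusp form `g`:
`p · g h + U_p (U_p g · U_p h) = 0` on `q`-expansions. -/
theorem traceZero (G : ModularForm (Gamma0 p) 2) (g : CuspForm (Gamma0 p) 2) :
    (p : ℂ) • (qExpansion 1 G * qExpansion 1 g) +
      TraceQ.Up p (TraceQ.Up p (qExpansion 1 G) * TraceQ.Up p (qExpansion 1 g)) = 0 := by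
  have hΓ := CongruenceSubgroup.one_mem_strictPeriods_Gamma0 p
  obtain ⟨F, hF⟩ := TRACE2 G (g : ModularForm (Gamma0 p) 2)
  have hg : qExpansion 1 (⇑(g : ModularForm (Gamma0 p) 2)) = qExpansion 1 g := rfl
  rw [hg] at hF
  have hg0 : (qExpansion 1 g).coeff 0 = 0 := CuspFormClass.qExpansion_coeff_zero g one_pos hΓ
  have hF0 : (qExpansion 1 F).coeff 0 = 0 := by
    rw [hF]
    simp only [map_add, PowerSeries.coeff_smul, TraceQ.coeff_Up, mul_zero, smul_eq_mul,
      PowerSeries.coeff_zero_eq_constantCoeff, map_mul]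
    rw [← PowerSeries.coeff_zero_eq_constantCoeff_apply, ← PowerSeries.coeff_zero_eq_constantCoeff_apply,
      ← PowerSeries.coeff_zero_eq_constantCoeff_apply (TraceQ.Up p (qExpansion 1 ⇑g)),
      TraceQ.coeff_Up, mul_zero, hg0]
    simp
  have hall : ∀ m : ℕ, (qExpansion 1 F).coeff m ∈ (⊥ : AddSubgroup ℂ) :=
    LevelOneSturm.coeff_mem_of_low ⊥ F (fun m hm => by
      have hm0 : m = 0 := by omega
      rw [hm0, hF0]
      exact AddSubgroup.zero_mem _)
  have hFz : qExpansion 1 F = 0 := by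
    ext m
    have := hall m
    rw [AddSubgroup.mem_bot] at this
    simpa using this
  rw [hFz] at hF
  have hp0 : (p : ℂ) ≠ 0 := by exact_mod_cast hp.out.ne_zero
  have h2 := congrArg (fun x => (p : ℂ) • x) hF
  simp only [smul_zero, smul_add, smul_smul, mul_inv_cancel₀ hp0, one_smul] at h2
  exact h2.symm

end Fermat.Agent.S16.TraceBridge
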