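import Mathlib
import Fermat.Prelude.Def_ModularForm_HeckeOperator
import Fermat.Agent.S23.Theta
import Fermat.Agent.S16.Defs
import Fermat.Prelude.Thm_UpperHalfPlane_qCoeff_heckeT
import Fermat.Prelude.Thm_UpperHalfPlane_qCoeff_heckeU
import Fermat.Prelude.Thm_ModularForm_mdifferentiable_heckeT
import Fermat.Prelude.Thm_ModularForm_isBoundedAtImInfty_heckeT
import Fermat.Prelude.Thm_ModularForm_periodic_heckeT_comp_ofComplex
import Fermat.Prelude.Thm_ModularForm_mdifferentiable_heckeU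
import Fermat.Prelude.Thm_ModularForm_isBoundedAtImInfty_heckeU
import Fermat.Prelude.Thm_ModularForm_periodic_heckeU_comp_ofComplex

/-!
# S16: the Eisenstein series of weight two on `Γ₀(N)`

`eis24 N = N E₂(Nτ) - E₂(τ)` (i.e. `24 E`) as an honest `ModularForm (Γ₀(N)) 2`, built from the
non-holomorphic `E₂* = E₂ - 3/(π Im τ)` (which is `SL₂(ℤ)`-invariant by Mathlib's `E2_slash_action`):
`eis24 N = E₂* ∣ diag(N,1) - E₂*`.

Main results:
* `eis24`, `eis24_apply`;
* `qExpansion_eis24_coeff_zero`: constant term `N - 1`;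
* `qExpansion_eis24_coeff`, `qCoeff_eis24`: `n`-th coefficient `24 σ'(n)` (`sigmaPrime`, `sigmaP`);
* `heckeT_eis24`, `heckeU_eis24`: `T_l (24E) = (1 + l) 24E`, `U_p (24E) = 24E`;
* `sigmaPrime_mul_prime`, `sigmaPrime_mul_self`: the same relations on coefficients;
* `exists_form_of_eisLift`: an Eisenstein lift mod `m` gives `G ∈ M₂(Γ₀(p))` with `q`-expansion
  in `(p - 1) + 24 m q ℤ[[q]]`.
-/

set_option autoImplicit false

open UpperHalfPlane ModularForm Filter Topology EisensteinSeries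
open scoped MatrixGroups ModularForm Manifold Pointwise Real

namespace Fermat.Agent.S16.Eis

/-! ### Arithmetic of the divisor sums -/

/-- The sum of the divisors of `n` which are not divisible by `N`. -/
def sigmaPrime (N n : ℕ) : ℕ := ∑ d ∈ n.divisors with ¬ N ∣ d, d

/-- Sum over the divisors of `n` that are multiples of `l`. -/
theorem sum_divisors_filter_dvd {M : Type*} [AddCommMonoid M] (f : ℕ → M) {l n : ℕ} (hl : l ≠ 0)
    (hn : n ≠ 0) :
    (∑ d ∈ n.divisors with l ∣ d, f d) =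
      if l ∣ n then ∑ e ∈ (n / l).divisors, f (l * e) else 0 := by
  split_ifs with h
  · obtain ⟨m, rfl⟩ := h
    have hm : m ≠ 0 := fun h0 => hn (by rw [h0, mul_zero])
    rw [Nat.mul_div_cancel_left _ (Nat.pos_of_ne_zero hl)]
    have hset : (l * m).divisors.filter (fun d => l ∣ d) = m.divisors.image (fun e => l * e) := by
      ext d
      simp only [Finset.mem_filter, Nat.mem_divisors, Finset.mem_image]
      constructor
      · rintro ⟨⟨hd, -⟩, e, rfl⟩
        exact ⟨e, ⟨Nat.dvd_of_mul_dvd_mul_left (Nat.pos_of_ne_zero hl) hd, hm⟩, rfl⟩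
      · rintro ⟨e, ⟨he, -⟩, rfl⟩
        exact ⟨⟨Nat.mul_dvd_mul_left l he, hn⟩, dvd_mul_right l e⟩
    rw [hset, Finset.sum_image]
    intro a _ b _ hab
    exact Nat.eq_of_mul_eq_mul_left (Nat.pos_of_ne_zero hl) hab
  · rw [Finset.filter_false_of_mem, Finset.sum_empty]
    intro d hd hld
    exact h (hld.trans (Nat.dvd_of_mem_divisors hd))

/-- For a prime `l`, the divisors of `n * l` prime to `l` are those of `n`. -/
theorem divisors_mul_prime_filter_not_dvd {l n : ℕ} (hl : l.Prime) (hn : n ≠ 0) :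
    (n * l).divisors.filter (fun d => ¬ l ∣ d) = n.divisors.filter (fun d => ¬ l ∣ d) := by
  ext d
  simp only [Finset.mem_filter, Nat.mem_divisors]
  constructor
  · rintro ⟨⟨hd, -⟩, hld⟩
    have hcop : Nat.Coprime d l := ((Nat.Prime.coprime_iff_not_dvd hl).mpr hld).symm
    exact ⟨⟨hcop.dvd_of_dvd_mul_right hd, hn⟩, hld⟩
  · rintro ⟨⟨hd, -⟩, hld⟩
    exact ⟨⟨hd.mul_right l, mul_ne_zero hn hl.ne_zero⟩, hld⟩

theorem sigmaPrime_eq_sum (N n : ℕ) :
    sigmaPrime N n = ∑ d ∈ n.divisors, if N ∣ d then 0 else d := by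
  rw [sigmaPrime, Finset.sum_filter]
  refine Finset.sum_congr rfl fun d _ => ?_
  by_cases h : N ∣ d <;> simp [h]

/-- `σ₁(n) = σ'(n) + N σ₁(n / N)`. -/
theorem sigma_one_eq_sigmaPrime_add {N n : ℕ} (hN : N ≠ 0) (hn : n ≠ 0) :
    ArithmeticFunction.sigma 1 n =
      sigmaPrime N n + if N ∣ n then N * ArithmeticFunction.sigma 1 (n / N) else 0 := by
  rw [ArithmeticFunction.sigma_one_apply, sigmaPrime,
    ← Finset.sum_filter_add_sum_filter_not n.divisors (fun d => N ∣ d) (fun d => d),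
    sum_divisors_filter_dvd (fun d => d) hN hn, add_comm]
  congr 1
  split_ifs with h
  · rw [ArithmeticFunction.sigma_one_apply, Finset.mul_sum]
  · rfl

theorem sigmaPrime_one {N : ℕ} (hN : N ≠ 1) : sigmaPrime N 1 = 1 := by
  have : ¬ N ∣ 1 := fun h => hN (Nat.dvd_one.mp h)
  rw [sigmaPrime, Nat.divisors_one, Finset.filter_singleton, if_pos this, Finset.sum_singleton]

/-- `σ'(n p) = σ'(n)` for a prime `p`. -/
theorem sigmaPrime_mul_self {p n : ℕ} (hp : p.Prime) (hn : n ≠ 0) :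
    sigmaPrime p (n * p) = sigmaPrime p n := by
  rw [sigmaPrime, sigmaPrime, divisors_mul_prime_filter_not_dvd hp hn]

/-- The Hecke relation `σ'(n l) + l σ'(n / l) = (1 + l) σ'(n)` for primes `l ≠ p`. -/
theorem sigmaPrime_mul_prime {p l n : ℕ} (hp : p.Prime) (hl : l.Prime) (hlp : l ≠ p) (hn : n ≠ 0) :
    sigmaPrime p (n * l) + (if l ∣ n then l * sigmaPrime p (n / l) else 0) =
      (1 + l) * sigmaPrime p n := by
  have hmul : ∀ e : ℕ, (if p ∣ l * e then 0 else l * e) = l * (if p ∣ e then 0 else e) := by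
    intro e
    have hiff : p ∣ l * e ↔ p ∣ e := by
      constructor
      · intro h
        rcases (Nat.Prime.dvd_mul hp).mp h with h1 | h1
        · exact absurd ((Nat.prime_dvd_prime_iff_eq hp hl).mp h1).symm hlp
        · exact h1
      · intro h
        exact h.mul_left l
    by_cases h : p ∣ e
    · simp [h, hiff.mpr h]
    · simp [h, mt hiff.mp h]
  set f : ℕ → ℕ := fun d => if p ∣ d then 0 else d with hf
  have hnl : n * l ≠ 0 := mul_ne_zero hn hl.ne_zero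
  -- split the divisors of `n * l` according to divisibility by `l`
  have h1 : sigmaPrime p (n * l) = l * sigmaPrime p n + ∑ d ∈ n.divisors with ¬ l ∣ d, f d := by
    rw [sigmaPrime_eq_sum,
      ← Finset.sum_filter_add_sum_filter_not (n * l).divisors (fun d => l ∣ d) f,
      sum_divisors_filter_dvd f hl.ne_zero hnl, if_pos (dvd_mul_left l n),
      Nat.mul_div_cancel _ hl.pos, divisors_mul_prime_filter_not_dvd hl hn, sigmaPrime_eq_sum,
      Finset.mul_sum]
    congr 1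
    exact Finset.sum_congr rfl fun e _ => hmul e
  have h2 : sigmaPrime p n = (if l ∣ n then l * sigmaPrime p (n / l) else 0) +
      ∑ d ∈ n.divisors with ¬ l ∣ d, f d := by
    rw [sigmaPrime_eq_sum,
      ← Finset.sum_filter_add_sum_filter_not n.divisors (fun d => l ∣ d) f,
      sum_divisors_filter_dvd f hl.ne_zero hn]
    congr 1
    split_ifs with h
    · rw [sigmaPrime_eq_sum, Finset.mul_sum]
      exact Finset.sum_congr rfl fun e _ => hmul e
    · rfl
  rw [h1, add_mul, one_mul]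
  nth_rewrite 2 [h2]
  ring


/-! ### The modular form -/

/-- `1 / Im z` as a complex-valued function on the upper half plane. -/
noncomputable def imInv (z : ℍ) : ℂ := ((z.im : ℝ) : ℂ)⁻¹

theorem D2_apply' (γ : SL(2, ℤ)) (z : ℍ) :
    D2 γ z = (2 * π * Complex.I * (γ 1 0 : ℤ)) / (((γ 1 0 : ℤ) : ℂ) * z + ((γ 1 1 : ℤ) : ℂ)) := by
  simp [D2, ModularGroup.denom_apply]

theorem imInv_slash_SL (γ : SL(2, ℤ)) (z : ℍ) :
    (imInv ∣[(2 : ℤ)] γ) z =
      imInv z - 2 * Complex.I * (γ 1 0 : ℤ) / (((γ 1 0 : ℤ) : ℂ) * z + ((γ 1 1 : ℤ) : ℂ)) := by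
  rw [ModularForm.SL_slash_apply, ModularGroup.denom_apply]
  have him : (γ • z).im = z.im / Complex.normSq (((γ 1 0 : ℤ) : ℂ) * z + ((γ 1 1 : ℤ) : ℂ)) := by
    rw [ModularGroup.im_smul_eq_div_normSq, ModularGroup.denom_apply]
  have hd : ((γ 1 0 : ℤ) : ℂ) * z + ((γ 1 1 : ℤ) : ℂ) ≠ 0 := by
    have := UpperHalfPlane.denom_ne_zero (Matrix.SpecialLinearGroup.toGL
      ((Matrix.SpecialLinearGroup.map (Int.castRingHom ℝ)) γ)) z
    rwa [ModularGroup.denom_apply] at this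
  have hz : ((z.im : ℝ) : ℂ) ≠ 0 := by exact_mod_cast z.im_pos.ne'
  set d : ℂ := ((γ 1 0 : ℤ) : ℂ) * z + ((γ 1 1 : ℤ) : ℂ) with hd_def
  have hconj : (starRingEnd ℂ) d = d - 2 * Complex.I * (γ 1 0 : ℤ) * ((z.im : ℝ) : ℂ) := by
    apply Complex.ext
    · simp [hd_def]
    · simp [hd_def]
      ring
  have hnorm : ((Complex.normSq d : ℝ) : ℂ) = d * (starRingEnd ℂ) d := by
    rw [Complex.mul_conj]
  simp only [imInv, him]
  push_cast
  rw [hnorm, hconj]
  field_simp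

/-- The non-holomorphic weight two Eisenstein series `E₂*(z) = E₂(z) - 3 / (π Im z)`. -/
noncomputable def E2star : ℍ → ℂ := E2 - ((3 : ℂ) / π) • imInv

theorem E2star_slash_SL (γ : SL(2, ℤ)) : E2star ∣[(2 : ℤ)] γ = E2star := by
  ext z
  have hpi : (π : ℂ) ≠ 0 := by exact_mod_cast Real.pi_ne_zero
  have h1 : (E2star ∣[(2 : ℤ)] γ) z =
      (E2 ∣[(2 : ℤ)] γ) z - ((3 : ℂ) / π) * (imInv ∣[(2 : ℤ)] γ) z := by
    simp only [ModularForm.SL_slash_apply, E2star, Pi.sub_apply, Pi.smul_apply, smul_eq_mul]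
    ring
  rw [h1, E2_slash_action, imInv_slash_SL, Pi.sub_apply, Pi.smul_apply, D2_apply', riemannZeta_two]
  simp only [E2star, Pi.sub_apply, Pi.smul_apply, smul_eq_mul]
  field_simp
  ring

theorem im_heckeDiagMatrix_smul {N : ℕ} (hN : N ≠ 0) (τ : ℍ) :
    (heckeDiagMatrix N • τ).im = N * τ.im := by
  have h := congrArg Complex.im (coe_heckeDiagMatrix_smul hN τ)
  simpa using h

theorem imInv_slash_diag (N : ℕ) [NeZero N] : imInv ∣[(2 : ℤ)] heckeDiagMatrix N = imInv := by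
  ext τ
  have hN : N ≠ 0 := NeZero.ne N
  have hN' : (N : ℂ) ≠ 0 := by exact_mod_cast hN
  have hz : ((τ.im : ℝ) : ℂ) ≠ 0 := by exact_mod_cast τ.im_pos.ne'
  rw [slash_heckeDiagMatrix_apply 2 hN]
  simp only [imInv, im_heckeDiagMatrix_smul hN]
  push_cast
  field_simp

/-- The function `τ ↦ N E₂(Nτ) - E₂(τ)`. -/
noncomputable def eisFun (N : ℕ) : ℍ → ℂ := E2 ∣[(2 : ℤ)] heckeDiagMatrix N - E2

theorem eisFun_apply (N : ℕ) [NeZero N] (τ : ℍ) :
    eisFun N τ = N * E2 (heckeDiagMatrix N • τ) - E2 τ := by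
  simp only [eisFun, Pi.sub_apply, slash_heckeDiagMatrix_apply 2 (NeZero.ne N)]
  norm_num

theorem eisFun_eq (N : ℕ) [NeZero N] :
    eisFun N = E2star ∣[(2 : ℤ)] heckeDiagMatrix N - E2star := by
  have h : E2star ∣[(2 : ℤ)] heckeDiagMatrix N =
      E2 ∣[(2 : ℤ)] heckeDiagMatrix N - ((3 : ℂ) / π) • imInv := by
    ext τ
    rw [slash_heckeDiagMatrix_apply 2 (NeZero.ne N), Pi.sub_apply, Pi.smul_apply,
      slash_heckeDiagMatrix_apply 2 (NeZero.ne N), ← imInv_slash_diag N,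
      slash_heckeDiagMatrix_apply 2 (NeZero.ne N)]
    simp only [E2star, Pi.sub_apply, Pi.smul_apply, smul_eq_mul]
    ring
  rw [h, eisFun, E2star]
  abel

theorem eisFun_mdifferentiable (N : ℕ) : MDiff (eisFun N) :=
  (E2_mdifferentiable.slash 2 (heckeDiagMatrix N)).sub E2_mdifferentiable

theorem E2star_slash_mapGL (γ : SL(2, ℤ)) :
    E2star ∣[(2 : ℤ)] (Matrix.SpecialLinearGroup.mapGL ℝ γ) = E2star :=
  E2star_slash_SL γ

theorem eisFun_slash (N : ℕ) [NeZero N] (γ : GL (Fin 2) ℝ)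
    (hγ : γ ∈ ((CongruenceSubgroup.Gamma0 N : Subgroup SL(2, ℤ)) : Subgroup (GL (Fin 2) ℝ))) :
    eisFun N ∣[(2 : ℤ)] γ = eisFun N := by
  have h1 := Fermat.Agent.S23.Theta.gamma0_le_conj N hγ
  rw [Subgroup.mem_pointwise_smul_iff_inv_smul_mem, ConjAct.smul_def] at h1
  simp only [map_inv, inv_inv, ConjAct.ofConjAct_toConjAct] at h1
  obtain ⟨γ', hγ'⟩ := h1
  obtain ⟨γ₀, -, hγ₀⟩ := hγ
  have hmul : heckeDiagMatrix N * γ = Matrix.SpecialLinearGroup.mapGL ℝ γ' * heckeDiagMatrix N := by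
    rw [hγ']
    group
  rw [eisFun_eq, sub_eq_add_neg, SlashAction.add_slash, SlashAction.neg_slash,
    ← SlashAction.slash_mul, hmul, SlashAction.slash_mul, E2star_slash_mapGL, ← hγ₀,
    E2star_slash_mapGL]

theorem isBoundedAtImInfty_imInv : IsBoundedAtImInfty imInv := by
  rw [UpperHalfPlane.isBoundedAtImInfty_iff]
  refine ⟨1, 1, fun z hz => ?_⟩
  have hpos : 0 < z.im := z.im_pos
  rw [imInv, norm_inv, Complex.norm_real, Real.norm_of_nonneg hpos.le]
  exact inv_le_one_of_one_le₀ hz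

theorem isBoundedAtImInfty_E2star : IsBoundedAtImInfty E2star := by
  have h1 : IsBoundedAtImInfty (((3 : ℂ) / π) • imInv) := isBoundedAtImInfty_imInv.const_smul_left _
  exact isBoundedAtImInfty_E2.sub h1

theorem E2star_isBoundedAt {c : OnePoint ℝ} (hc : IsCusp c 𝒮ℒ) : c.IsBoundedAt E2star 2 :=
  (OnePoint.isBoundedAt_iff_forall_SL2Z hc).mpr fun γ _ => by
    rw [E2star_slash_SL]
    exact isBoundedAtImInfty_E2star

theorem eisFun_isBoundedAt (N : ℕ) [NeZero N] {c : OnePoint ℝ}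
    (hc : IsCusp c ((CongruenceSubgroup.Gamma0 N : Subgroup SL(2, ℤ)) : Subgroup (GL (Fin 2) ℝ))) :
    c.IsBoundedAt (eisFun N) 2 := by
  have hle : ((CongruenceSubgroup.Gamma0 N : Subgroup SL(2, ℤ)) : Subgroup (GL (Fin 2) ℝ)) ≤ 𝒮ℒ := by
    rintro _ ⟨γ, -, rfl⟩
    exact ⟨γ, rfl⟩
  have h1 : c.IsBoundedAt E2star 2 := E2star_isBoundedAt (hc.mono hle)
  have h2 : c.IsBoundedAt (E2star ∣[(2 : ℤ)] heckeDiagMatrix N) 2 := by
    rw [← OnePoint.IsBoundedAt.smul_iff]
    apply E2star_isBoundedAt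
    have h3 := (hc.mono (Fermat.Agent.S23.Theta.gamma0_le_conj N)).smul (heckeDiagMatrix N)
    simpa using h3
  intro g hg
  rw [eisFun_eq, sub_eq_add_neg, SlashAction.add_slash, SlashAction.neg_slash, ← sub_eq_add_neg]
  exact (h2 g hg).sub (h1 g hg)

/-- `24 E = N E₂(Nτ) - E₂(τ)` as a modular form of weight two on `Γ₀(N)`. -/
noncomputable def eis24 (N : ℕ) [NeZero N] : ModularForm (CongruenceSubgroup.Gamma0 N) 2 where
  toFun := eisFun N
  slash_action_eq' γ hγ := eisFun_slash N γ hγ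
  holo' := eisFun_mdifferentiable N
  bdd_at_cusps' hc := eisFun_isBoundedAt N hc

theorem coe_eis24 (N : ℕ) [NeZero N] : (eis24 N : ℍ → ℂ) = eisFun N := rfl

theorem eis24_apply (N : ℕ) [NeZero N] (τ : ℍ) :
    eis24 N τ = N * E2 (heckeDiagMatrix N • τ) - E2 τ :=
  eisFun_apply N τ

/-! ### The `q`-expansion -/

local notation "𝕢" => Function.Periodic.qParam

/-- The `q`-coefficients of `E₂`. -/
noncomputable def e2Coeff (m : ℕ) : ℂ :=
  if m = 0 then 1 else -24 * (ArithmeticFunction.sigma 1 m : ℂ)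

theorem hasSum_e2Coeff (τ : ℍ) : HasSum (fun m ↦ e2Coeff m • 𝕢 1 (τ : ℂ) ^ m) (E2 τ) := by
  have h := hasSum_qExpansion_E2 (z := τ)
  simpa only [Function.Periodic.qParam, Complex.ofReal_one, div_one, e2Coeff] using h

/-- The `q`-coefficients of `N E₂(Nτ) - E₂(τ)`. -/
noncomputable def eisCoeff (N n : ℕ) : ℂ :=
  (if N ∣ n then (N : ℂ) * e2Coeff (n / N) else 0) - e2Coeff n

theorem hasSum_eisCoeff (N : ℕ) [NeZero N] (τ : ℍ) :
    HasSum (fun n ↦ eisCoeff N n • 𝕢 1 (τ : ℂ) ^ n) (eis24 N τ) := by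
  have hN : N ≠ 0 := NeZero.ne N
  have h := (hasSum_e2Coeff (heckeDiagMatrix N • τ)).mul_left (N : ℂ)
  rw [Fermat.Agent.S23.Theta.qParam_heckeDiagMatrix_smul] at h
  have hinj : Function.Injective (fun m : ℕ ↦ N * m) := fun a b hab ↦
    Nat.eq_of_mul_eq_mul_left (Nat.pos_of_ne_zero hN) hab
  have h1 : HasSum (fun n ↦ (if N ∣ n then (N : ℂ) * e2Coeff (n / N) else 0) • 𝕢 1 (τ : ℂ) ^ n)
      ((N : ℂ) * E2 (heckeDiagMatrix N • τ)) := by
    rw [← hinj.hasSum_iff]
    · have hfun : ((fun n ↦ (if N ∣ n then (N : ℂ) * e2Coeff (n / N) else 0) • 𝕢 1 (τ : ℂ) ^ n) ∘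
          fun m ↦ N * m) = fun i ↦ (N : ℂ) * (e2Coeff i • (𝕢 1 (τ : ℂ) ^ N) ^ i) := by
        funext m
        simp only [Function.comp_apply, dvd_mul_right, if_true,
          Nat.mul_div_cancel_left _ (Nat.pos_of_ne_zero hN), smul_eq_mul, pow_mul]
        ring
      rw [hfun]
      exact h
    · intro n hn
      have : ¬ N ∣ n := fun ⟨m, hm⟩ ↦ hn ⟨m, hm.symm⟩
      simp [this]
  have h2 := h1.sub (hasSum_e2Coeff τ)
  rw [eis24_apply]
  have hfun : (fun n ↦ eisCoeff N n • 𝕢 1 (τ : ℂ) ^ n) = fun b ↦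
      (if N ∣ b then (N : ℂ) * e2Coeff (b / N) else 0) • 𝕢 1 (τ : ℂ) ^ b
        - e2Coeff b • 𝕢 1 (τ : ℂ) ^ b := by
    funext n
    unfold eisCoeff
    rw [sub_smul]
  rw [hfun]
  exact h2

theorem qExpansion_eis24_coeff' (N : ℕ) [NeZero N] (n : ℕ) :
    (qExpansion 1 (eis24 N)).coeff n = eisCoeff N n :=
  (ModularFormClass.qExpansion_coeff_unique one_pos
    (CongruenceSubgroup.one_mem_strictPeriods_Gamma0 N) (hasSum_eisCoeff N) n).symm

theorem qExpansion_eis24_coeff_zero (N : ℕ) [NeZero N] :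
    (qExpansion 1 (eis24 N)).coeff 0 = (N : ℂ) - 1 := by
  rw [qExpansion_eis24_coeff']
  simp [eisCoeff, e2Coeff]

theorem eisCoeff_eq {N n : ℕ} (hN : N ≠ 0) (hn : n ≠ 0) :
    eisCoeff N n = 24 * (sigmaPrime N n : ℂ) := by
  have h := sigma_one_eq_sigmaPrime_add hN hn
  have hc : (ArithmeticFunction.sigma 1 n : ℂ) =
      (sigmaPrime N n : ℂ) +
        ((if N ∣ n then N * ArithmeticFunction.sigma 1 (n / N) else 0 : ℕ) : ℂ) := by
    exact_mod_cast h
  unfold eisCoeff e2Coeff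
  rw [if_neg hn, hc]
  split_ifs with h1 h2
  · exfalso
    obtain ⟨m, rfl⟩ := h1
    rw [Nat.mul_div_cancel_left _ (Nat.pos_of_ne_zero hN)] at h2
    exact hn (by rw [h2, mul_zero])
  · push_cast
    ring
  · push_cast
    ring

/-- The `q`-expansion of `eis24 N`: constant term `N - 1`, and `24 σ'(n)` for `n ≥ 1`. -/
theorem qExpansion_eis24_coeff (N : ℕ) [NeZero N] {n : ℕ} (hn : n ≠ 0) :
    (qExpansion 1 (eis24 N)).coeff n = 24 * (sigmaPrime N n : ℂ) := by
  rw [qExpansion_eis24_coeff', eisCoeff_eq (NeZero.ne N) hn]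

theorem eisCoeff_zero (N : ℕ) : eisCoeff N 0 = (N : ℂ) - 1 := by
  simp [eisCoeff, e2Coeff]

/-! ### Hecke eigen-relations -/

theorem eis24_periodic (N : ℕ) [NeZero N] :
    Function.Periodic ((eis24 N : ℍ → ℂ) ∘ ofComplex) 1 := by
  have h := SlashInvariantFormClass.periodic_comp_ofComplex (eis24 N)
    (CongruenceSubgroup.one_mem_strictPeriods_Gamma0 N)
  simpa using h

theorem eis24_isBoundedAtImInfty (N : ℕ) [NeZero N] : IsBoundedAtImInfty (eis24 N : ℍ → ℂ) :=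
  ModularFormClass.bdd_at_infty (eis24 N)

theorem eis24_mdifferentiable (N : ℕ) [NeZero N] : MDiff (eis24 N : ℍ → ℂ) :=
  eisFun_mdifferentiable N

/-- A `1`-periodic holomorphic function bounded at `i∞` is determined by a `q`-expansion. -/
theorem eq_of_hasSum {f g : ℍ → ℂ} {c : ℕ → ℂ} (hper : Function.Periodic (f ∘ ofComplex) 1)
    (hhol : MDiff f) (hbdd : IsBoundedAtImInfty f)
    (hg : ∀ τ : ℍ, HasSum (fun n ↦ c n • 𝕢 1 (τ : ℂ) ^ n) (g τ))
    (hc : ∀ n, (qExpansion 1 f).coeff n = c n) : f = g := by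
  funext τ
  have h1 := UpperHalfPlane.hasSum_qExpansion one_pos hper hhol hbdd τ
  have h2 : (fun m : ℕ ↦ (qExpansion 1 f).coeff m • 𝕢 1 (τ : ℂ) ^ m) =
      fun n ↦ c n • 𝕢 1 (τ : ℂ) ^ n := by
    funext m
    rw [hc m]
  rw [h2] at h1
  exact h1.unique (hg τ)

/-- `T_l (24E) = (1 + l) 24E` for primes `l ≠ p`. -/
theorem heckeT_eis24 (p : ℕ) [Fact p.Prime] {l : ℕ} (hl : l.Prime) (hlp : l ≠ p) :
    heckeT 2 l (eis24 p : ℍ → ℂ) = ((1 + l : ℕ) : ℂ) • (eis24 p : ℍ → ℂ) := by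
  have : NeZero p := ⟨(Fact.out : p.Prime).ne_zero⟩
  have hp : p.Prime := Fact.out
  refine eq_of_hasSum (c := fun n ↦ ((1 + l : ℕ) : ℂ) * eisCoeff p n)
    (periodic_heckeT_comp_ofComplex (eis24_periodic p) 2 l)
    (mdifferentiable_heckeT (eis24_mdifferentiable p) 2 l)
    (isBoundedAtImInfty_heckeT (eis24_isBoundedAtImInfty p) 2 l) (fun τ ↦ ?_) (fun n ↦ ?_)
  · have h := (hasSum_eisCoeff p τ).mul_left (((1 + l : ℕ) : ℂ))
    simpa only [Pi.smul_apply, smul_eq_mul, mul_assoc] using h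
  · have h := UpperHalfPlane.qCoeff_heckeT (eis24_periodic p) (eis24_mdifferentiable p)
      (eis24_isBoundedAtImInfty p) 2 hl.ne_zero n
    rw [ModularFormClass.qCoeff] at h
    rw [h, coeffHeckeT_apply]
    simp only [ModularFormClass.qCoeff, qExpansion_eis24_coeff']
    rcases Nat.eq_zero_or_pos n with rfl | hn
    · simp only [zero_mul, dvd_zero, if_true, Nat.zero_div, eisCoeff_zero]
      push_cast
      norm_num
      ring
    · have hn0 : n ≠ 0 := hn.ne'
      have hnl : n * l ≠ 0 := mul_ne_zero hn0 hl.ne_zero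
      have hrel := sigmaPrime_mul_prime hp hl hlp hn0
      have hrelC : (sigmaPrime p (n * l) : ℂ) +
          ((if l ∣ n then l * sigmaPrime p (n / l) else 0 : ℕ) : ℂ) =
          ((1 + l : ℕ) : ℂ) * (sigmaPrime p n : ℂ) := by
        exact_mod_cast hrel
      rw [eisCoeff_eq hp.ne_zero hnl, eisCoeff_eq hp.ne_zero hn0, ← mul_assoc,
        mul_comm (((1 + l : ℕ) : ℂ)) 24, mul_assoc, ← hrelC]
      split_ifs with hdvd
      · have hq : n / l ≠ 0 := by
          obtain ⟨m, rfl⟩ := hdvd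
          rw [Nat.mul_div_cancel_left _ hl.pos]
          exact fun h0 => hn0 (by rw [h0, mul_zero])
        rw [eisCoeff_eq hp.ne_zero hq]
        push_cast
        norm_num
        ring
      · push_cast
        ring

/-- `U_p (24E) = 24E`. -/
theorem heckeU_eis24 (p : ℕ) [Fact p.Prime] :
    heckeU 2 p (eis24 p : ℍ → ℂ) = (eis24 p : ℍ → ℂ) := by
  have : NeZero p := ⟨(Fact.out : p.Prime).ne_zero⟩
  have hp : p.Prime := Fact.out
  refine eq_of_hasSum (c := fun n ↦ eisCoeff p n)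
    (periodic_heckeU_comp_ofComplex (eis24_periodic p) 2 p)
    (mdifferentiable_heckeU (eis24_mdifferentiable p) 2 p)
    (isBoundedAtImInfty_heckeU (eis24_isBoundedAtImInfty p) 2 p) (hasSum_eisCoeff p) (fun n ↦ ?_)
  have h := UpperHalfPlane.qCoeff_heckeU (eis24_periodic p) (eis24_mdifferentiable p)
    (eis24_isBoundedAtImInfty p) 2 hp.ne_zero n
  rw [ModularFormClass.qCoeff] at h
  rw [h, coeffHeckeU_apply]
  simp only [ModularFormClass.qCoeff, qExpansion_eis24_coeff']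
  rcases Nat.eq_zero_or_pos n with rfl | hn
  · simp
  · have hn0 : n ≠ 0 := hn.ne'
    rw [eisCoeff_eq hp.ne_zero (mul_ne_zero hn0 hp.ne_zero), eisCoeff_eq hp.ne_zero hn0,
      sigmaPrime_mul_self hp hn0]

/-! ### Bridges to the shared definitions of `Fermat.Agent.S16.Defs` -/

theorem sigmaP_eq_sigmaPrime (p n : ℕ) : Fermat.Agent.S16.sigmaP p n = (sigmaPrime p n : ℤ) := by
  simp [Fermat.Agent.S16.sigmaP, sigmaPrime]

theorem qCoeff_eis24_zero (N : ℕ) [NeZero N] :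
    ModularFormClass.qCoeff (eis24 N) 0 = (N : ℂ) - 1 :=
  qExpansion_eis24_coeff_zero N

theorem qCoeff_eis24 (N : ℕ) [NeZero N] {n : ℕ} (hn : n ≠ 0) :
    ModularFormClass.qCoeff (eis24 N) n = 24 * ((Fermat.Agent.S16.sigmaP N n : ℤ) : ℂ) := by
  rw [ModularFormClass.qCoeff, qExpansion_eis24_coeff N hn, sigmaP_eq_sigmaPrime]
  simp

/-- The `q`-expansion of `eis24 N - c • f` for a cusp form `f`. -/
theorem qCoeff_eis24_sub_smul (N : ℕ) [NeZero N] (c : ℂ)
    (f : CuspForm (CongruenceSubgroup.Gamma0 N) 2) (n : ℕ) :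
    ModularFormClass.qCoeff
        ((eis24 N - c • CuspForm.toModularFormₗ f : ModularForm (CongruenceSubgroup.Gamma0 N) 2) :
          ℍ → ℂ) n =
      ModularFormClass.qCoeff (eis24 N) n - c * ModularFormClass.qCoeff f n := by
  have hsum : ∀ τ : ℍ, HasSum (fun m ↦ (eisCoeff N m - c * (qExpansion 1 f).coeff m) •
      𝕢 1 (τ : ℂ) ^ m) ((eis24 N - c • CuspForm.toModularFormₗ f) τ) := by
    intro τ
    have h1 := hasSum_eisCoeff N τ
    have h2 := (ModularForm.hasSum_qExpansion f one_pos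
      (CongruenceSubgroup.one_mem_strictPeriods_Gamma0 N) τ).mul_left c
    have h3 := h1.sub h2
    have hfun : (fun m ↦ (eisCoeff N m - c * (qExpansion 1 f).coeff m) • 𝕢 1 (τ : ℂ) ^ m) =
        fun b ↦ eisCoeff N b • 𝕢 1 (τ : ℂ) ^ b -
          c * ((qExpansion 1 f).coeff b • 𝕢 1 (τ : ℂ) ^ b) := by
      funext m
      simp only [smul_eq_mul]
      ring
    rw [hfun]
    exact h3
  have h := (ModularFormClass.qExpansion_coeff_unique one_pos
    (CongruenceSubgroup.one_mem_strictPeriods_Gamma0 N) hsum n).symm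
  rw [ModularFormClass.qCoeff, h, ModularFormClass.qCoeff, ModularFormClass.qCoeff,
    qExpansion_eis24_coeff']

/-- An Eisenstein lift modulo `m` produces `G ∈ M₂(Γ₀(p))` with `q`-expansion
`(p - 1) + 24 m ∑_{k ≥ 1} b_k q^k`, `b_k ∈ ℤ`. -/
theorem exists_form_of_eisLift {p m : ℕ} [NeZero p] (h : Fermat.Agent.S16.EisLift p m) :
    ∃ G : ModularForm (CongruenceSubgroup.Gamma0 p) 2,
      ModularFormClass.qCoeff G 0 = (p : ℂ) - 1 ∧
      ∀ k : ℕ, 1 ≤ k → ∃ b : ℤ, ModularFormClass.qCoeff G k = 24 * (m : ℂ) * (b : ℂ) := by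
  obtain ⟨f, -, hf⟩ := h
  refine ⟨eis24 p - (24 : ℂ) • CuspForm.toModularFormₗ f, ?_, ?_⟩
  · rw [qCoeff_eis24_sub_smul, qCoeff_eis24_zero]
    have h0 : ModularFormClass.qCoeff f 0 = 0 :=
      CuspFormClass.qExpansion_coeff_zero f one_pos
        (CongruenceSubgroup.one_mem_strictPeriods_Gamma0 p)
    rw [h0, mul_zero, sub_zero]
  · intro k hk
    obtain ⟨b, hb⟩ := hf k hk
    refine ⟨-b, ?_⟩
    rw [qCoeff_eis24_sub_smul, qCoeff_eis24 p (by omega), hb]
    push_cast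
    ring

end Fermat.Agent.S16.Eis
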