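import Mathlib

/-!
# S16 — the abstract perfect pairing `T × L → ℤ`

Let `L` be a free `ℤ`-module of finite rank, `T ⊆ End_ℤ(L)` a commutative subalgebra and
`a k : L → ℤ` (`k ≥ 1`) linear forms ("`q`-coefficients") such that

* `a k f = 0` for all `k ≥ 1` implies `f = 0` (`q`-expansion principle);
* `L` is saturated: if `N ≠ 0` divides all `a k f`, then `f ∈ N • L`;
* there are `t k ∈ T` with `a 1 (t k f) = a k f` ("`a₁(T_k f) = a_k(f)`").

Then the pairing `T × L → ℤ`, `(s, f) ↦ a 1 (s f)`, is perfect on the `L`-side: every linear form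
`φ : T → ℤ` is `s ↦ a 1 (s f)` for some `f ∈ L` (`exists_dual`; the `f` is unique,
`dual_unique`).
-/

set_option autoImplicit false

namespace Fermat.Agent.S16.Pairing

open Module

/-- An injective linear map between free `ℤ`-modules of the same finite rank has torsion
cokernel. -/
theorem exists_smul_mem_range {M M' : Type*} [AddCommGroup M] [AddCommGroup M']
    [Module.Free ℤ M] [Module.Finite ℤ M] [Module.Free ℤ M'] [Module.Finite ℤ M']
    (u : M →ₗ[ℤ] M') (hu : Function.Injective u) (hr : finrank ℤ M = finrank ℤ M') (y : M') :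
    ∃ N : ℤ, N ≠ 0 ∧ ∃ x : M, u x = N • y := by
  have hrank : finrank ℤ (LinearMap.range u) = finrank ℤ M' := by
    rw [LinearMap.finrank_range_of_inj hu, hr]
  have : Finite (M' ⧸ LinearMap.range u) :=
    Submodule.finiteQuotientOfFreeOfRankEq (LinearMap.range u) hrank
  have hidx : (LinearMap.range u).toAddSubgroup.index ≠ 0 := by
    have hfin : Finite (M' ⧸ (LinearMap.range u).toAddSubgroup) :=
      ‹Finite (M' ⧸ LinearMap.range u)›
    have : (LinearMap.range u).toAddSubgroup.FiniteIndex :=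
      AddSubgroup.finiteIndex_of_finite_quotient
    exact AddSubgroup.FiniteIndex.index_ne_zero
  have hmem : (LinearMap.range u).toAddSubgroup.index • y ∈ (LinearMap.range u).toAddSubgroup :=
    AddSubgroup.nsmul_index_mem _ y
  obtain ⟨x, hx⟩ := hmem
  refine ⟨((LinearMap.range u).toAddSubgroup.index : ℤ), by exact_mod_cast hidx, x, ?_⟩
  rw [hx, natCast_zsmul]

section

variable {L : Type*} [AddCommGroup L] [Module.Free ℤ L] [Module.Finite ℤ L]
  (T : Subalgebra ℤ (Module.End ℤ L))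

/-- The map `L → Hom(T, ℤ)`, `f ↦ (s ↦ a (s f))`. -/
def theta (a : L →ₗ[ℤ] ℤ) : L →ₗ[ℤ] (T →ₗ[ℤ] ℤ) where
  toFun f :=
    { toFun := fun s => a (s.1 f)
      map_add' := fun s s' => by simp [LinearMap.add_apply]
      map_smul' := fun c s => by simp }
  map_add' f g := by ext s; simp
  map_smul' c f := by ext s; simp

/-- The map `T → Hom(L, ℤ)`, `s ↦ (f ↦ a (s f))`. -/
def psi (a : L →ₗ[ℤ] ℤ) : T →ₗ[ℤ] (L →ₗ[ℤ] ℤ) where
  toFun s := a.comp s.1
  map_add' s s' := by ext f; simp [LinearMap.add_apply]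
  map_smul' c s := by ext f; simp [LinearMap.smul_apply]

@[simp] theorem theta_apply (a : L →ₗ[ℤ] ℤ) (f : L) (s : T) : theta T a f s = a (s.1 f) := rfl

@[simp] theorem psi_apply (a : L →ₗ[ℤ] ℤ) (s : T) (f : L) : psi T a s f = a (s.1 f) := rfl

instance instFiniteT : Module.Finite ℤ T :=
  Module.Finite.of_injective T.val.toLinearMap Subtype.val_injective

instance instFreeT : Module.Free ℤ T := by
  have : Module.IsTorsionFree ℤ T := by
    refine Function.Injective.moduleIsTorsionFree (f := T.val.toLinearMap) Subtype.val_injective ?_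
    intro c x
    rfl
  exact Module.free_of_finite_type_torsion_free'

variable (a : ℕ → L →ₗ[ℤ] ℤ) (t : ℕ → Module.End ℤ L)

theorem theta_injective (hinj : ∀ f : L, (∀ k, 1 ≤ k → a k f = 0) → f = 0)
    (ht : ∀ k, 1 ≤ k → t k ∈ T) (hta : ∀ k, 1 ≤ k → ∀ f : L, a 1 (t k f) = a k f) :
    Function.Injective (theta T (a 1)) := by
  rw [injective_iff_map_eq_zero]
  intro f hf
  refine hinj f fun k hk => ?_
  rw [← hta k hk f]
  exact congrArg (fun ψ : T →ₗ[ℤ] ℤ => ψ ⟨t k, ht k hk⟩) hf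

theorem psi_injective (hT : ∀ s ∈ T, ∀ s' ∈ T, s * s' = s' * s)
    (hinj : ∀ f : L, (∀ k, 1 ≤ k → a k f = 0) → f = 0)
    (ht : ∀ k, 1 ≤ k → t k ∈ T) (hta : ∀ k, 1 ≤ k → ∀ f : L, a 1 (t k f) = a k f) :
    Function.Injective (psi T (a 1)) := by
  rw [injective_iff_map_eq_zero]
  intro s hs
  apply Subtype.ext
  refine LinearMap.ext fun f => ?_
  refine hinj (s.1 f) fun k hk => ?_
  rw [← hta k hk (s.1 f)]
  have hcomm : t k (s.1 f) = s.1 (t k f) := by
    have := hT (t k) (ht k hk) s.1 s.2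
    exact congrArg (fun e : Module.End ℤ L => e f) this
  rw [hcomm]
  exact congrArg (fun ψ : L →ₗ[ℤ] ℤ => ψ (t k f)) hs

theorem finrank_eq (hT : ∀ s ∈ T, ∀ s' ∈ T, s * s' = s' * s)
    (hinj : ∀ f : L, (∀ k, 1 ≤ k → a k f = 0) → f = 0)
    (ht : ∀ k, 1 ≤ k → t k ∈ T) (hta : ∀ k, 1 ≤ k → ∀ f : L, a 1 (t k f) = a k f) :
    finrank ℤ L = finrank ℤ (T →ₗ[ℤ] ℤ) := by
  have h1 : finrank ℤ L ≤ finrank ℤ (T →ₗ[ℤ] ℤ) :=
    LinearMap.finrank_le_finrank_of_injective (theta_injective T a t hinj ht hta)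
  have h2 : finrank ℤ T ≤ finrank ℤ (L →ₗ[ℤ] ℤ) :=
    LinearMap.finrank_le_finrank_of_injective (psi_injective T a t hT hinj ht hta)
  rw [Module.finrank_linearMap_self] at h1 h2 ⊢
  exact le_antisymm h1 h2

/-- **Perfectness of the pairing on the `L`-side.** -/
theorem exists_dual (hT : ∀ s ∈ T, ∀ s' ∈ T, s * s' = s' * s)
    (hinj : ∀ f : L, (∀ k, 1 ≤ k → a k f = 0) → f = 0)
    (hsat : ∀ (N : ℤ) (f : L), N ≠ 0 → (∀ k, 1 ≤ k → N ∣ a k f) → ∃ g : L, f = N • g)
    (ht : ∀ k, 1 ≤ k → t k ∈ T) (hta : ∀ k, 1 ≤ k → ∀ f : L, a 1 (t k f) = a k f)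
    (φ : T →ₗ[ℤ] ℤ) : ∃ f : L, ∀ s : T, a 1 (s.1 f) = φ s := by
  obtain ⟨N, hN, f, hf⟩ := exists_smul_mem_range (theta T (a 1))
    (theta_injective T a t hinj ht hta) (finrank_eq T a t hT hinj ht hta) φ
  have hdiv : ∀ k, 1 ≤ k → N ∣ a k f := by
    intro k hk
    rw [← hta k hk f]
    have := congrArg (fun ψ : T →ₗ[ℤ] ℤ => ψ ⟨t k, ht k hk⟩) hf
    simp only [theta_apply, LinearMap.smul_apply, smul_eq_mul] at this
    exact ⟨_, this⟩
  obtain ⟨g, rfl⟩ := hsat N f hN hdiv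
  refine ⟨g, fun s => ?_⟩
  have := congrArg (fun ψ : T →ₗ[ℤ] ℤ => ψ s) hf
  simp only [theta_apply, LinearMap.smul_apply, smul_eq_mul, map_smul] at this
  exact mul_left_cancel₀ hN this

/-- Uniqueness of the dual element. -/
theorem dual_unique (hinj : ∀ f : L, (∀ k, 1 ≤ k → a k f = 0) → f = 0)
    (ht : ∀ k, 1 ≤ k → t k ∈ T) (hta : ∀ k, 1 ≤ k → ∀ f : L, a 1 (t k f) = a k f)
    (f g : L) (h : ∀ s : T, a 1 (s.1 f) = a 1 (s.1 g)) : f = g :=
  theta_injective T a t hinj ht hta (LinearMap.ext fun s => h s)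

end

end Fermat.Agent.S16.Pairing
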