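import Mathlib
import Fermat.Prelude.Def_CuspForm_HeckeLocal
import Fermat.Prelude.Def_CuspForm_HeckeEvalForms
import Fermat.Agent.S16.Pairing
import Fermat.Agent.S49.Forms
import Fermat.Agent.S23

/-!
# S16 — the perfect pairing for the Hecke algebra of `S₂(Γ₀(p), ℤ)`

Concrete instantiation of `Fermat.Agent.S16.Pairing.exists_dual` for the Prelude lattice
`L = intLattice p 2` and `T = heckeLatticeAlgebra p ∅`.

Main result (`exists_lift`): suppose that for every `k ≥ 1` there is a Hecke polynomial `P_k` with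
`a₁(P_k(T) f) = a_k(f)` for all cusp forms `f` and Eisenstein value `σ k`.  If `m` divides the
Eisenstein value of every Hecke polynomial acting as `0` on `S₂(Γ₀(p))`, then there is a cusp form
with integral `q`-expansion and `a_k ≡ σ k (mod m)` for all `k ≥ 1`.
-/

set_option autoImplicit false

open CongruenceSubgroup ModularFormClass UpperHalfPlane ModularCurve CuspForm

namespace Fermat.Agent.S16.PairingHecke

open Fermat.Agent.S49

variable (p : ℕ) [Fact p.Prime]

/-- The `k`-th `q`-coefficient of an element of the integral lattice, as an integer. -/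
noncomputable def aInt (k : ℕ) (f : ↥(intLattice p 2)) : ℤ :=
  ((mem_intLattice_iff f.1).mp f.2 k).choose

theorem aInt_spec (k : ℕ) (f : ↥(intLattice p 2)) :
    qCoeff (⇑f.1) k = (aInt p k f : ℂ) :=
  ((mem_intLattice_iff f.1).mp f.2 k).choose_spec

theorem qCoeff_zsmul (c : ℤ) (f : CuspForm (Gamma0 p) 2) (k : ℕ) :
    qCoeff (⇑(c • f)) k = (c : ℂ) * qCoeff (⇑f) k := by
  rw [← qLin_apply, map_zsmul, qLin_apply]
  simp

/-- The `k`-th `q`-coefficient as a `ℤ`-linear form on the integral lattice. -/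
noncomputable def aLin (k : ℕ) : ↥(intLattice p 2) →ₗ[ℤ] ℤ where
  toFun := aInt p k
  map_add' f g := by
    apply Int.cast_injective (α := ℂ)
    rw [← aInt_spec, Int.cast_add, ← aInt_spec, ← aInt_spec]
    exact qCoeff_add f.1 g.1 k
  map_smul' c f := by
    apply Int.cast_injective (α := ℂ)
    rw [← aInt_spec]
    simp only [RingHom.id_apply, smul_eq_mul, Int.cast_mul, ← aInt_spec]
    exact qCoeff_zsmul p c f.1 k

theorem aLin_apply (k : ℕ) (f : ↥(intLattice p 2)) :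
    ((aLin p k f : ℤ) : ℂ) = qCoeff (⇑f.1) k := (aInt_spec p k f).symm

/-- A `ℤ`-linear lift to a free module of a character modulo `m`: if `π : R → T'` is a surjective
ring homomorphism onto a ring which is free of finite rank over `ℤ`, and `ε : R → ℤ` is a ring
homomorphism with `m ∣ ε Q` for all `Q ∈ ker π`, then there is a linear form `φ : T' → ℤ` with
`φ (π Q) ≡ ε Q (mod m)` for all `Q`. -/
theorem exists_linear_lift {R T' : Type*} [CommRing R] [CommRing T'] [Module.Free ℤ T']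
    [Module.Finite ℤ T'] (π : R →+* T') (hπ : Function.Surjective π) (ε : R →+* ℤ) (m : ℤ)
    (hm : ∀ Q : R, π Q = 0 → m ∣ ε Q) :
    ∃ φ : T' →ₗ[ℤ] ℤ, ∀ Q : R, m ∣ ε Q - φ (π Q) := by
  classical
  let b := Module.Free.chooseBasis ℤ T'
  choose Qb hQb using fun i => hπ (b i)
  refine ⟨b.constr ℤ (fun i => ε (Qb i)), fun Q => ?_⟩
  obtain ⟨c, hc⟩ : ∃ c : Module.Free.ChooseBasisIndex ℤ T' → ℤ, ∑ i, c i • b i = π Q :=
    ⟨fun i => b.repr (π Q) i, b.sum_repr _⟩
  have h1 : π (Q - ∑ i, c i • Qb i) = 0 := by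
    rw [map_sub, map_sum, ← hc, sub_eq_zero]
    refine Finset.sum_congr rfl fun i _ => ?_
    rw [map_zsmul, hQb i]
  have h2 : (b.constr ℤ (fun i => ε (Qb i))) (π Q) = ∑ i, c i * ε (Qb i) := by
    rw [← hc, map_sum]
    refine Finset.sum_congr rfl fun i _ => ?_
    rw [map_smul, Module.Basis.constr_basis, smul_eq_mul]
  have h3 := hm _ h1
  rw [map_sub, map_sum] at h3
  rw [h2]
  have h4 : ∑ i, ε (c i • Qb i) = ∑ i, c i * ε (Qb i) :=
    Finset.sum_congr rfl fun i _ => by rw [map_zsmul, smul_eq_mul]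
  rw [h4] at h3
  exact h3

/-- The Hecke polynomials surject onto the Hecke algebra. -/
theorem heckeEvalForms_surjective : Function.Surjective (heckeEvalForms p 2) := by
  have h : heckeAlgebra p 2 ∅ ≤
      ((heckeAlgebra p 2 ∅).val.comp (MvPolynomial.aeval (heckeFormsGen p 2))).range := by
    apply Algebra.adjoin_le
    rintro y (⟨ℓ, hℓ, hℓN, -, rfl⟩ | ⟨q, hqN, hq, -, rfl⟩)
    · refine ⟨heckeGen (⟨ℓ, hℓ⟩ : Nat.Primes), ?_⟩
      change ((heckeEvalForms p 2 (heckeGen (⟨ℓ, hℓ⟩ : Nat.Primes)) :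
        heckeAlgebra p 2 ∅) : Module.End ℂ (CuspForm (Gamma0 p) 2)) = _
      rw [heckeEvalForms_heckeGen_of_not_dvd (ℓ := (⟨ℓ, hℓ⟩ : Nat.Primes)) hℓN]
      rfl
    · refine ⟨heckeGen (⟨q, hq⟩ : Nat.Primes), ?_⟩
      change ((heckeEvalForms p 2 (heckeGen (⟨q, hq⟩ : Nat.Primes)) :
        heckeAlgebra p 2 ∅) : Module.End ℂ (CuspForm (Gamma0 p) 2)) = _
      rw [heckeEvalForms_heckeGen_of_dvd (q := (⟨q, hq⟩ : Nat.Primes)) hqN]
      rfl
  intro x
  obtain ⟨Q, hQ⟩ := h x.2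
  exact ⟨Q, Subtype.ext hQ⟩

/-- The composite `ℤ[X_ℓ] → T` of the S16 statement. -/
noncomputable def evalLattice : HeckeAlg →+* ↥(heckeLatticeAlgebra p ∅) :=
  (latticeRestrictHom p ∅).toRingHom.comp (heckeEvalForms p 2)

theorem evalLattice_surjective : Function.Surjective (evalLattice p) :=
  (latticeRestrictHom_surjective p ∅).comp (heckeEvalForms_surjective p)

theorem evalLattice_eq_zero_iff (Q : HeckeAlg) :
    evalLattice p Q = 0 ↔ heckeEvalForms p 2 Q = 0 := by
  constructor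
  · intro h
    have hinj := (latticeRestrictHom_bijective p ∅ (Fermat.Agent.S23.result p)).1
    apply hinj
    rw [map_zero]
    exact h
  · intro h
    simp [evalLattice, h]

theorem evalLattice_apply_coe (Q : HeckeAlg) (f : ↥(intLattice p 2)) :
    (((evalLattice p Q : ↥(heckeLatticeAlgebra p ∅)) : Module.End ℤ ↥(intLattice p 2)) f :
      CuspForm (Gamma0 p) 2) = (heckeEvalForms p 2 Q).1 f.1 := rfl

/-- Version of `exists_lift` with the kernel of `evalLattice`. -/
theorem exists_lift' (σ : ℕ → ℤ)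
    (hP : ∀ k, 1 ≤ k → ∃ P : HeckeAlg,
      MvPolynomial.aeval (eisensteinSystem p) P = σ k ∧
      ∀ f : CuspForm (Gamma0 p) 2,
        qCoeff (⇑((heckeEvalForms p 2 P).1 f)) 1 = qCoeff (⇑f) k)
    (m : ℤ)
    (hm : ∀ Q : HeckeAlg, evalLattice p Q = 0 →
      m ∣ MvPolynomial.aeval (eisensteinSystem p) Q) :
    ∃ f : CuspForm (Gamma0 p) 2, (∀ k : ℕ, ∃ c : ℤ, qCoeff (⇑f) k = (c : ℂ)) ∧
      ∀ k : ℕ, 1 ≤ k → ∃ c : ℤ, qCoeff (⇑f) k = (σ k : ℂ) + (m : ℂ) * (c : ℂ) := by
  classical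
  have := intLattice.moduleFinite p
  have := intLattice.moduleFree p
  choose P hPeis hPcoeff using hP
  -- the operators `t k`
  let t : ℕ → Module.End ℤ ↥(intLattice p 2) := fun k =>
    if h : 1 ≤ k then ((evalLattice p (P k h) : ↥(heckeLatticeAlgebra p ∅)) :
      Module.End ℤ ↥(intLattice p 2)) else 0
  have ht : ∀ k, 1 ≤ k → t k ∈ heckeLatticeAlgebra p ∅ := by
    intro k hk
    simp only [t, dif_pos hk]
    exact (evalLattice p (P k hk)).2
  have hta : ∀ k, 1 ≤ k → ∀ f : ↥(intLattice p 2), aLin p 1 (t k f) = aLin p k f := by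
    intro k hk f
    apply Int.cast_injective (α := ℂ)
    rw [aLin_apply, aLin_apply]
    simp only [t, dif_pos hk]
    rw [evalLattice_apply_coe]
    exact hPcoeff k hk f.1
  have hT : ∀ s ∈ heckeLatticeAlgebra p ∅, ∀ s' ∈ heckeLatticeAlgebra p ∅, s * s' = s' * s := by
    intro s hs s' hs'
    exact congrArg Subtype.val
      (mul_comm (⟨s, hs⟩ : ↥(heckeLatticeAlgebra p ∅)) ⟨s', hs'⟩)
  have hinj : ∀ f : ↥(intLattice p 2), (∀ k, 1 ≤ k → aLin p k f = 0) → f = 0 := by
    intro f hf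
    apply Subtype.ext
    apply ext_qCoeff
    intro n
    have h0 : qCoeff (⇑(0 : CuspForm (Gamma0 p) 2)) n = 0 := by
      rw [← qLin_apply, map_zero]
    rw [Submodule.coe_zero, h0]
    rcases Nat.eq_zero_or_pos n with rfl | hn
    · exact qCoeff_zero_eq f.1
    · rw [← aLin_apply, hf n hn, Int.cast_zero]
  have hsat : ∀ (N : ℤ) (f : ↥(intLattice p 2)), N ≠ 0 → (∀ k, 1 ≤ k → N ∣ aLin p k f) →
      ∃ g : ↥(intLattice p 2), f = N • g := by
    intro N f hN hdiv
    have hNc : (N : ℂ) ≠ 0 := by exact_mod_cast hN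
    have hg : ((N : ℂ)⁻¹ • f.1) ∈ intLattice p 2 := by
      rw [mem_intLattice_iff]
      intro n
      rcases Nat.eq_zero_or_pos n with rfl | hn
      · refine ⟨0, ?_⟩
        rw [qCoeff_smul, qCoeff_zero_eq]
        simp
      · obtain ⟨c, hc⟩ := hdiv n hn
        refine ⟨c, ?_⟩
        rw [qCoeff_smul, ← aLin_apply, hc]
        push_cast
        field_simp
    refine ⟨⟨(N : ℂ)⁻¹ • f.1, hg⟩, ?_⟩
    apply Subtype.ext
    rw [Submodule.coe_smul]
    change f.1 = N • ((N : ℂ)⁻¹ • f.1)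
    rw [← Int.cast_smul_eq_zsmul ℂ, smul_smul, mul_inv_cancel₀ hNc, one_smul]
  -- the linear form `φ`
  obtain ⟨φ, hφ⟩ := exists_linear_lift (evalLattice p) (evalLattice_surjective p)
    (MvPolynomial.aeval (R := ℤ) (eisensteinSystem p)).toRingHom m hm
  obtain ⟨f, hf⟩ := Pairing.exists_dual (heckeLatticeAlgebra p ∅) (aLin p) t hT hinj hsat ht hta φ
  refine ⟨f.1, (mem_intLattice_iff f.1).mp f.2, fun k hk => ?_⟩
  obtain ⟨d, hd⟩ := hφ (P k hk)
  have h4 : aLin p k f = φ (evalLattice p (P k hk)) := by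
    rw [← hta k hk f]
    have := hf ⟨t k, ht k hk⟩
    rw [this]
    congr 1
    apply Subtype.ext
    simp only [t, dif_pos hk]
  refine ⟨-d, ?_⟩
  rw [← aLin_apply, h4]
  have hd' : MvPolynomial.aeval (eisensteinSystem p) (P k hk) - φ (evalLattice p (P k hk))
      = m * d := hd
  have h5 : φ (evalLattice p (P k hk)) = σ k - m * d := by
    rw [← hPeis k hk]
    linarith
  rw [h5]
  push_cast
  ring

/-- **Duality for S16.**  If `m` divides the Eisenstein value of every Hecke polynomial which acts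
as `0` on `S₂(Γ₀(p))`, then the Eisenstein system lifts modulo `m` to a cusp form with integral
`q`-expansion. -/
theorem exists_lift (σ : ℕ → ℤ)
    (hP : ∀ k, 1 ≤ k → ∃ P : HeckeAlg,
      MvPolynomial.aeval (eisensteinSystem p) P = σ k ∧
      ∀ f : CuspForm (Gamma0 p) 2,
        qCoeff (⇑((heckeEvalForms p 2 P).1 f)) 1 = qCoeff (⇑f) k)
    (m : ℤ)
    (hm : ∀ Q : HeckeAlg, heckeEvalForms p 2 Q = 0 →
      m ∣ MvPolynomial.aeval (eisensteinSystem p) Q) :
    ∃ f : CuspForm (Gamma0 p) 2, (∀ k : ℕ, ∃ c : ℤ, qCoeff (⇑f) k = (c : ℂ)) ∧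
      ∀ k : ℕ, 1 ≤ k → ∃ c : ℤ, qCoeff (⇑f) k = (σ k : ℂ) + (m : ℂ) * (c : ℂ) :=
  exists_lift' p σ hP m fun Q hQ => hm Q ((evalLattice_eq_zero_iff p Q).mp hQ)

end Fermat.Agent.S16.PairingHecke
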