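import Fermat.Agent.S16.ConjQ

/-!
# S16 shared core "TraceQ": `T1`, `POW`, `NORM`

For `G ∈ M₂(Γ₀(p))` with `q`-expansion `g`:

* `T1`   : `U_p (U_p g) = g`;
* `POW`  : `g ^ k + (-1)^k p^(1-k) U_p ((U_p g) ^ k)` is the `q`-expansion of a level-one form of
  weight `2 k` (the trace of `G ^ k`);
* `TRACE`, `NORM` : for a weighted homogeneous polynomial `Φ(G, E₄, E₆)` of weight `w`, the trace
  and the norm of `Φ(G, E₄, E₆)` are level-one forms of weights `w` and `w (p + 1)` whose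
  `q_p`-expansions (`V_p` of the `q`-expansion) are the sum / product of `Φ` evaluated at the
  explicit conjugate series.
-/

set_option autoImplicit false

namespace Fermat.Agent.S16.TraceQ

open UpperHalfPlane ModularForm Matrix.SpecialLinearGroup CongruenceSubgroup Filter
open scoped MatrixGroups Manifold ModularForm Topology

open Fermat.Agent.S16.ConjQ

/-! ### Power series operators -/

/-- `U_p` on power series: `∑ aₙ Xⁿ ↦ ∑ a_{pn} Xⁿ`. -/
noncomputable def Up (p : ℕ) {R : Type*} [Semiring R] (g : PowerSeries R) : PowerSeries R :=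
  PowerSeries.mk fun n => PowerSeries.coeff (p * n) g

theorem coeff_Up (p : ℕ) {R : Type*} [Semiring R] (g : PowerSeries R) (n : ℕ) :
    PowerSeries.coeff n (Up p g) = PowerSeries.coeff (p * n) g := by
  rw [Up, PowerSeries.coeff_mk]

/-- The `q_p`-series of the conjugate `G ∣ S T^j`, from the `q`-series `g` of `G`:
`∑ -(1/p) ζ^{jn} a_{pn} Xⁿ`. -/
noncomputable def conjQ (p : ℕ) (g : PowerSeries ℂ) (j : ℕ) : PowerSeries ℂ :=
  PowerSeries.mk fun n => -((p : ℂ)⁻¹ * zeta p ^ (j * n) * PowerSeries.coeff (p * n) g)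

theorem coeff_conjQ (p : ℕ) (g : PowerSeries ℂ) (j n : ℕ) :
    PowerSeries.coeff n (conjQ p g j) =
      -((p : ℂ)⁻¹ * zeta p ^ (j * n) * PowerSeries.coeff (p * n) g) := by
  rw [conjQ, PowerSeries.coeff_mk]

theorem conjQ_eq_rescale (p : ℕ) (g : PowerSeries ℂ) (j : ℕ) :
    conjQ p g j = PowerSeries.C (-(p : ℂ)⁻¹) * PowerSeries.rescale (zeta p ^ j) (Up p g) := by
  ext n
  rw [coeff_conjQ, PowerSeries.coeff_C_mul, PowerSeries.coeff_rescale, coeff_Up, pow_mul]
  ring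

theorem zeta_pow_p {p : ℕ} (hp : p ≠ 0) : zeta p ^ p = 1 := by
  have h := Complex.isPrimitiveRoot_exp p hp
  exact h.pow_eq_one

theorem zeta_pow_eq_one_iff {p : ℕ} (hp : p ≠ 0) (n : ℕ) : zeta p ^ n = 1 ↔ p ∣ n := by
  have h := Complex.isPrimitiveRoot_exp p hp
  exact h.pow_eq_one_iff_dvd n

/-- The sum of the `n`-th powers of the `p`-th roots of unity. -/
theorem sum_zeta_pow {p : ℕ} (hp : p ≠ 0) (n : ℕ) :
    ∑ j ∈ Finset.range p, zeta p ^ (j * n) = if p ∣ n then (p : ℂ) else 0 := by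
  have hrw : ∀ j : ℕ, zeta p ^ (j * n) = (zeta p ^ n) ^ j := fun j => by
    rw [← pow_mul, mul_comm]
  simp_rw [hrw]
  split_ifs with h
  · rw [(zeta_pow_eq_one_iff hp n).mpr h]
    simp
  · have h1 : zeta p ^ n ≠ 1 := fun h' => h ((zeta_pow_eq_one_iff hp n).mp h')
    have h2 := mul_geom_sum (zeta p ^ n) p
    rw [← pow_mul, mul_comm n p, pow_mul, zeta_pow_p hp, one_pow, sub_self] at h2
    exact (mul_eq_zero.mp h2).resolve_left (sub_ne_zero.mpr h1)

/-- `∑_j h(ζ^j X) = p · V_p (U_p h)`. -/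
theorem sum_rescale {p : ℕ} (hp : p ≠ 0) (h : PowerSeries ℂ) :
    ∑ j ∈ Finset.range p, PowerSeries.rescale (zeta p ^ j) h =
      (p : ℂ) • PowerSeries.expand p hp (Up p h) := by
  ext n
  rw [map_sum, PowerSeries.coeff_smul, PowerSeries.coeff_expand]
  simp_rw [PowerSeries.coeff_rescale, ← pow_mul]
  rw [← Finset.sum_mul, sum_zeta_pow hp n]
  split_ifs with hn
  · rw [coeff_Up, Nat.mul_div_cancel' hn, smul_eq_mul]
  · simp

/-- `∑_j (conjQ g j)^k = (-1)^k p^(1-k) V_p (U_p ((U_p g)^k))`. -/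
theorem sum_conjQ_pow {p : ℕ} (hp : p ≠ 0) (g : PowerSeries ℂ) (k : ℕ) :
    ∑ j ∈ Finset.range p, conjQ p g j ^ k =
      ((-1 : ℂ) ^ k * (p : ℂ) * ((p : ℂ)⁻¹) ^ k) •
        PowerSeries.expand p hp (Up p (Up p g ^ k)) := by
  have h1 : ∀ j : ℕ, conjQ p g j ^ k =
      PowerSeries.C ((-(p : ℂ)⁻¹) ^ k) * PowerSeries.rescale (zeta p ^ j) (Up p g ^ k) := by
    intro j
    rw [conjQ_eq_rescale, mul_pow, ← map_pow, ← map_pow]
  simp_rw [h1]
  rw [← Finset.mul_sum, sum_rescale hp, ← PowerSeries.smul_eq_C_mul, smul_smul]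
  congr 1
  rw [neg_pow]
  ring

/-! ### The algebra of holomorphic `h`-periodic functions bounded at `i∞` -/

/-- Holomorphic, `h`-periodic functions on `ℍ` which are bounded at `i∞`. -/
def HB (h : ℕ) : Subalgebra ℂ (ℍ → ℂ) where
  carrier := {F | MDiff F ∧ Function.Periodic (F ∘ ofComplex) (h : ℝ) ∧ IsBoundedAtImInfty F}
  mul_mem' := by
    rintro F G ⟨hF1, hF2, hF3⟩ ⟨hG1, hG2, hG3⟩
    exact ⟨hF1.mul hG1, hF2.mul hG2, hF3.mul hG3⟩
  add_mem' := by
    rintro F G ⟨hF1, hF2, hF3⟩ ⟨hG1, hG2, hG3⟩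
    exact ⟨hF1.add hG1, hF2.add hG2, hF3.add hG3⟩
  algebraMap_mem' := by
    intro c
    refine ⟨mdifferentiable_const, fun z => rfl, ?_⟩
    exact Filter.const_boundedAtFilter _ c

theorem mem_HB {h : ℕ} {F : ℍ → ℂ} :
    F ∈ HB h ↔ MDiff F ∧ Function.Periodic (F ∘ ofComplex) (h : ℝ) ∧ IsBoundedAtImInfty F :=
  Iff.rfl

theorem HB.analyticAt {h : ℕ} [NeZero h] {F : ℍ → ℂ} (hF : F ∈ HB h) :
    AnalyticAt ℂ (cuspFunction (h : ℝ) F) 0 :=
  analyticAt_cuspFunction_zero (by exact_mod_cast Nat.pos_of_ne_zero (NeZero.ne h))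
    hF.2.1 hF.1 hF.2.2

/-- The `q_h`-expansion as an algebra homomorphism. -/
noncomputable def qE (h : ℕ) [NeZero h] : HB h →ₐ[ℂ] PowerSeries ℂ where
  toFun F := qExpansion (h : ℝ) (F : ℍ → ℂ)
  map_one' := qExpansion_one _
  map_mul' F G := qExpansion_mul (HB.analyticAt F.2) (HB.analyticAt G.2)
  map_zero' := qExpansion_zero _
  map_add' F G := qExpansion_add (HB.analyticAt F.2) (HB.analyticAt G.2)
  commutes' c := by
    have h1 : ((algebraMap ℂ (HB h) c : HB h) : ℍ → ℂ) = c • (1 : ℍ → ℂ) := by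
      funext z
      simp [Algebra.algebraMap_eq_smul_one]
    show qExpansion (h : ℝ) ((algebraMap ℂ (HB h) c : HB h) : ℍ → ℂ) = _
    rw [h1, qExpansion_smul (HB.analyticAt (one_mem (HB h))) c, qExpansion_one,
      Algebra.algebraMap_eq_smul_one]

theorem qE_apply (h : ℕ) [NeZero h] (F : HB h) : qE h F = qExpansion (h : ℝ) (F : ℍ → ℂ) := rfl

/-- `q_h`-expansion commutes with polynomial expressions. -/
theorem qExpansion_aeval {h : ℕ} [NeZero h] {σ : Type*} (F : σ → ℍ → ℂ) (hF : ∀ t, F t ∈ HB h)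
    (Φ : MvPolynomial σ ℂ) :
    MvPolynomial.aeval F Φ ∈ HB h ∧
    qExpansion (h : ℝ) (MvPolynomial.aeval F Φ) =
      MvPolynomial.aeval (fun t => qExpansion (h : ℝ) (F t)) Φ := by
  set F' : σ → HB h := fun t => ⟨F t, hF t⟩ with hF'
  have h1 : ((MvPolynomial.aeval F' Φ : HB h) : ℍ → ℂ) = MvPolynomial.aeval F Φ := by
    have := MvPolynomial.comp_aeval_apply (f := F') (HB h).val Φ
    simpa [hF'] using this
  have h2 := MvPolynomial.comp_aeval_apply (f := F') (qE h) Φ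
  refine ⟨h1 ▸ (MvPolynomial.aeval F' Φ).2, ?_⟩
  rw [← h1, ← qE_apply, h2]
  rfl

/-! ### Slash of weighted homogeneous polynomial expressions -/

/-- Slash of a power by an element of `SL(2, ℤ)`. -/
theorem pow_slash' (w : ℤ) (γ : SL(2, ℤ)) (F : ℍ → ℂ) (j : ℕ) :
    (F ^ j) ∣[(j : ℤ) * w] γ = (F ∣[w] γ) ^ j := by
  induction j with
  | zero =>
    simp only [pow_zero, Nat.cast_zero, zero_mul]
    exact ModularForm.is_invariant_one γ
  | succ j ih =>
    rw [pow_succ, pow_succ, ← ih]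
    have : ((j + 1 : ℕ) : ℤ) * w = (j : ℤ) * w + w := by push_cast; ring
    rw [this]
    exact ModularForm.mul_slash_SL2 _ _ γ _ _

/-- Slash of a finite product by an element of `SL(2, ℤ)`. -/
theorem prod_slash_SL {ι : Type*} (s : Finset ι) (k : ι → ℤ) (f : ι → ℍ → ℂ) (γ : SL(2, ℤ)) :
    (∏ i ∈ s, f i) ∣[∑ i ∈ s, k i] γ = ∏ i ∈ s, f i ∣[k i] γ := by
  classical
  induction s using Finset.induction_on with
  | empty =>
    simp only [Finset.prod_empty, Finset.sum_empty]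
    exact ModularForm.is_invariant_one γ
  | insert a s ha ih =>
    rw [Finset.prod_insert ha, Finset.sum_insert ha, Finset.prod_insert ha, ← ih]
    exact ModularForm.mul_slash_SL2 _ _ γ _ _

/-- Slash of a weighted homogeneous polynomial expression: if `F t ∣[wt t] γ = F' t` for all
`t` then `Φ(F) ∣[w] γ = Φ(F')`. -/
theorem aeval_slash {σ : Type*} (wt : σ → ℕ) (γ : SL(2, ℤ)) (F F' : σ → ℍ → ℂ)
    (hF : ∀ t, F t ∣[(wt t : ℤ)] γ = F' t) {w : ℕ} {Φ : MvPolynomial σ ℂ}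
    (hΦ : MvPolynomial.IsWeightedHomogeneous wt Φ w) :
    (MvPolynomial.aeval F Φ) ∣[(w : ℤ)] γ = MvPolynomial.aeval F' Φ := by
  conv_lhs => rw [Φ.as_sum]
  conv_rhs => rw [Φ.as_sum]
  rw [map_sum, map_sum, SlashAction.sum_slash]
  refine Finset.sum_congr rfl fun d hd => ?_
  rw [MvPolynomial.aeval_monomial, MvPolynomial.aeval_monomial]
  have hw : Finsupp.weight wt d = w := hΦ (MvPolynomial.mem_support_iff.mp hd)
  rw [Algebra.algebraMap_eq_smul_one, smul_mul_assoc, one_mul, smul_mul_assoc, one_mul,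
    SL_smul_slash]
  congr 1
  rw [Finsupp.prod, Finsupp.prod]
  have hw' : (w : ℤ) = ∑ i ∈ d.support, ((d i : ℤ) * (wt i : ℤ)) := by
    rw [← hw, Finsupp.weight_apply, Finsupp.sum]
    push_cast
    simp [smul_eq_mul]
  rw [hw', prod_slash_SL]
  refine Finset.prod_congr rfl fun i _ => ?_
  rw [pow_slash', hF]

/-! ### Sums and products in `HB` -/

theorem qExpansion_sum_HB {h : ℕ} [NeZero h] {ι : Type*} (s : Finset ι) (f : ι → ℍ → ℂ)
    (hf : ∀ i, f i ∈ HB h) :
    qExpansion (h : ℝ) (∑ i ∈ s, f i) = ∑ i ∈ s, qExpansion (h : ℝ) (f i) := by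
  have h1 := map_sum (qE h) (fun i => (⟨f i, hf i⟩ : HB h)) s
  have h2 : ((∑ i ∈ s, (⟨f i, hf i⟩ : HB h) : HB h) : ℍ → ℂ) = ∑ i ∈ s, f i := by
    simp
  rw [← h2, ← qE_apply, h1]
  rfl

theorem qExpansion_prod_HB {h : ℕ} [NeZero h] {ι : Type*} (s : Finset ι) (f : ι → ℍ → ℂ)
    (hf : ∀ i, f i ∈ HB h) :
    qExpansion (h : ℝ) (∏ i ∈ s, f i) = ∏ i ∈ s, qExpansion (h : ℝ) (f i) := by
  have h1 := map_prod (qE h) (fun i => (⟨f i, hf i⟩ : HB h)) s
  have h2 : ((∏ i ∈ s, (⟨f i, hf i⟩ : HB h) : HB h) : ℍ → ℂ) = ∏ i ∈ s, f i := by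
    simp
  rw [← h2, ← qE_apply, h1]
  rfl

variable {p : ℕ} [hp : Fact p.Prime]

/-- Level-one forms are in `HB h`. -/
theorem levelOne_mem_HB {k : ℤ} (c : ModularForm 𝒮ℒ k) (h : ℕ) : (c : ℍ → ℂ) ∈ HB h := by
  refine ⟨c.holo', ?_, ModularFormClass.bdd_at_infty c⟩
  have h1 := SlashInvariantFormClass.periodic_comp_ofComplex c one_mem_strictPeriods_SL
  have := h1.nat_mul h
  simpa using this

/-- The `q_p`-expansion of a level-one form is `V_p` of its `q`-expansion. -/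
theorem qExpansion_levelOne {k : ℤ} (c : ModularForm 𝒮ℒ k) :
    qExpansion (p : ℝ) c = PowerSeries.expand p hp.out.ne_zero (qExpansion 1 c) := by
  ext n
  rw [PowerSeries.coeff_expand]
  exact qExpansion_width_coeff
    (SlashInvariantFormClass.periodic_comp_ofComplex c one_mem_strictPeriods_SL) c.holo'
    (ModularFormClass.bdd_at_infty c) n

theorem expand_injective {R : Type*} [CommRing R] {n : ℕ} (hn : n ≠ 0) :
    Function.Injective (PowerSeries.expand n hn : PowerSeries R → PowerSeries R) := by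
  intro a b hab
  ext m
  have := congrArg (PowerSeries.coeff (n * m)) hab
  simpa [PowerSeries.coeff_expand_mul] using this

/-! ### The conjugate system of `(G, E₄, E₆)` -/

/-- The tuple `(G ∣ R i, E₄, E₆)`. -/
noncomputable def tup (G : ModularForm (Gamma0 p) 2) (i : Option (Fin p)) : Fin 3 → ℍ → ℂ :=
  ![cj p 2 G i, ⇑E₄, ⇑E₆]

theorem tup_slash (G : ModularForm (Gamma0 p) 2) (γ : SL(2, ℤ)) (i : Option (Fin p))
    (t : Fin 3) :
    tup G i t ∣[(((![2, 4, 6] : Fin 3 → ℕ) t : ℕ) : ℤ)] γ = tup G (sigPerm p γ i) t := by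
  fin_cases t
  · exact cj_slash (inv_form G) γ i
  · exact E₄.slash_action_eq' (mapGL ℝ γ) ⟨γ, rfl⟩
  · exact E₆.slash_action_eq' (mapGL ℝ γ) ⟨γ, rfl⟩

theorem tup_mem_HB (G : ModularForm (Gamma0 p) 2) (i : Option (Fin p)) (t : Fin 3) :
    tup G i t ∈ HB p := by
  fin_cases t
  · exact ⟨mdiff_cj G.holo' i, periodic_cj (inv_form G) i, bdd_cj_form G i⟩
  · exact levelOne_mem_HB E₄ p
  · exact levelOne_mem_HB E₆ p

theorem aeval_tup_slash (G : ModularForm (Gamma0 p) 2) {w : ℕ} {Φ : MvPolynomial (Fin 3) ℂ}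
    (hΦ : MvPolynomial.IsWeightedHomogeneous ![2, 4, 6] Φ w) (γ : SL(2, ℤ))
    (i : Option (Fin p)) :
    (MvPolynomial.aeval (tup G i) Φ) ∣[(w : ℤ)] γ =
      MvPolynomial.aeval (tup G (sigPerm p γ i)) Φ :=
  aeval_slash ![2, 4, 6] γ _ _ (tup_slash G γ i) hΦ

theorem sigPerm_none_of_mem {γ : SL(2, ℤ)} (hγ : γ ∈ Gamma0 p) : sigPerm p γ none = none := by
  have h : (1 * γ) * (R p none)⁻¹ ∈ Gamma0 p := by simpa [R] using hγ
  exact (eq_cls_of_mem (1 * γ) none h).symm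

theorem sigPerm_R_none (i : Option (Fin p)) : sigPerm p (R p i) none = i := by
  have h : (1 * R p i) * (R p i)⁻¹ ∈ Gamma0 p := by simp
  exact (eq_cls_of_mem (1 * R p i) i h).symm

theorem aeval_tup_inv (G : ModularForm (Gamma0 p) 2) {w : ℕ} {Φ : MvPolynomial (Fin 3) ℂ}
    (hΦ : MvPolynomial.IsWeightedHomogeneous ![2, 4, 6] Φ w) :
    ∀ γ ∈ Gamma0 p, (MvPolynomial.aeval (tup G none) Φ) ∣[(w : ℤ)] γ =
      MvPolynomial.aeval (tup G none) Φ := by
  intro γ hγ
  rw [aeval_tup_slash G hΦ, sigPerm_none_of_mem hγ]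

theorem cj_aeval_tup (G : ModularForm (Gamma0 p) 2) {w : ℕ} {Φ : MvPolynomial (Fin 3) ℂ}
    (hΦ : MvPolynomial.IsWeightedHomogeneous ![2, 4, 6] Φ w) (i : Option (Fin p)) :
    cj p w (MvPolynomial.aeval (tup G none) Φ) i = MvPolynomial.aeval (tup G i) Φ := by
  unfold cj
  rw [aeval_tup_slash G hΦ, sigPerm_R_none]

theorem aeval_tup_mem (G : ModularForm (Gamma0 p) 2) (Φ : MvPolynomial (Fin 3) ℂ)
    (i : Option (Fin p)) : MvPolynomial.aeval (tup G i) Φ ∈ HB p :=
  (qExpansion_aeval (tup G i) (tup_mem_HB G i) Φ).1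

/-- The tuple of `q_p`-series at the index `i`. -/
noncomputable def tupQ (p : ℕ) [hp : Fact p.Prime] (g : PowerSeries ℂ) :
    Option (Fin p) → Fin 3 → PowerSeries ℂ
  | none => ![PowerSeries.expand p hp.out.ne_zero g,
      PowerSeries.expand p hp.out.ne_zero (qExpansion 1 E₄),
      PowerSeries.expand p hp.out.ne_zero (qExpansion 1 E₆)]
  | some j => ![conjQ p g j,
      PowerSeries.expand p hp.out.ne_zero (qExpansion 1 E₄),
      PowerSeries.expand p hp.out.ne_zero (qExpansion 1 E₆)]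

theorem qExpansion_tup (G : ModularForm (Gamma0 p) 2) (i : Option (Fin p)) :
    (fun t => qExpansion (p : ℝ) (tup G i t)) = tupQ p (qExpansion 1 G) i := by
  funext t
  cases i with
  | none =>
    fin_cases t
    · show qExpansion (p : ℝ) (cj p 2 G none) = PowerSeries.expand p hp.out.ne_zero _
      ext n
      rw [PowerSeries.coeff_expand]
      exact qExpansion_cj_none_coeff G n
    · exact qExpansion_levelOne E₄
    · exact qExpansion_levelOne E₆
  | some j =>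
    fin_cases t
    · show qExpansion (p : ℝ) (cj p 2 G (some j)) = conjQ p _ j
      ext n
      rw [coeff_conjQ, qExpansion_cj_some_coeff, mul_comm n p]
      ring
    · exact qExpansion_levelOne E₄
    · exact qExpansion_levelOne E₆

theorem qExpansion_aeval_tup (G : ModularForm (Gamma0 p) 2) (Φ : MvPolynomial (Fin 3) ℂ)
    (i : Option (Fin p)) :
    qExpansion (p : ℝ) (MvPolynomial.aeval (tup G i) Φ) =
      MvPolynomial.aeval (tupQ p (qExpansion 1 G) i) Φ := by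
  rw [(qExpansion_aeval (tup G i) (tup_mem_HB G i) Φ).2, qExpansion_tup]

/-! ### `TRACE` and `NORM` -/

/-- **TRACE**: for `Φ` weighted homogeneous of weight `w` in `(G, E₄, E₆)` (weights `2, 4, 6`),
the trace of `Φ(G, E₄, E₆)` is a level-one form of weight `w` whose `q_p`-expansion is the sum of
`Φ` at the conjugate series. -/
theorem TRACE (G : ModularForm (Gamma0 p) 2) (w : ℕ) (Φ : MvPolynomial (Fin 3) ℂ)
    (hΦ : MvPolynomial.IsWeightedHomogeneous ![2, 4, 6] Φ w) :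
    ∃ F : ModularForm 𝒮ℒ (w : ℤ),
      PowerSeries.expand p hp.out.ne_zero (qExpansion 1 F) =
        MvPolynomial.aeval ![PowerSeries.expand p hp.out.ne_zero (qExpansion 1 G),
            PowerSeries.expand p hp.out.ne_zero (qExpansion 1 E₄),
            PowerSeries.expand p hp.out.ne_zero (qExpansion 1 E₆)] Φ +
        ∑ j ∈ Finset.range p,
          MvPolynomial.aeval ![conjQ p (qExpansion 1 G) j,
            PowerSeries.expand p hp.out.ne_zero (qExpansion 1 E₄),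
            PowerSeries.expand p hp.out.ne_zero (qExpansion 1 E₆)] Φ := by
  have hcj := cj_aeval_tup G hΦ
  obtain ⟨F, hF⟩ := isLO_sum_cj (aeval_tup_inv G hΦ) (aeval_tup_mem G Φ none).1
    (fun i => by rw [hcj]; exact (aeval_tup_mem G Φ i).2.2)
  refine ⟨F, ?_⟩
  rw [← qExpansion_levelOne, hF]
  simp_rw [hcj]
  rw [qExpansion_sum_HB _ _ (aeval_tup_mem G Φ)]
  simp_rw [qExpansion_aeval_tup]
  rw [Fintype.sum_option, Finset.sum_range]
  rfl

/-- **NORM**: for `Φ` weighted homogeneous of weight `w` in `(G, E₄, E₆)`, the norm of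
`Φ(G, E₄, E₆)` is a level-one form of weight `w (p + 1)` whose `q_p`-expansion is the product of
`Φ` at the conjugate series. -/
theorem NORM (G : ModularForm (Gamma0 p) 2) (w : ℕ) (Φ : MvPolynomial (Fin 3) ℂ)
    (hΦ : MvPolynomial.IsWeightedHomogeneous ![2, 4, 6] Φ w) :
    ∃ N : ModularForm 𝒮ℒ ((w : ℤ) * (p + 1)),
      PowerSeries.expand p hp.out.ne_zero (qExpansion 1 N) =
        MvPolynomial.aeval ![PowerSeries.expand p hp.out.ne_zero (qExpansion 1 G),
            PowerSeries.expand p hp.out.ne_zero (qExpansion 1 E₄),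
            PowerSeries.expand p hp.out.ne_zero (qExpansion 1 E₆)] Φ *
        ∏ j ∈ Finset.range p,
          MvPolynomial.aeval ![conjQ p (qExpansion 1 G) j,
            PowerSeries.expand p hp.out.ne_zero (qExpansion 1 E₄),
            PowerSeries.expand p hp.out.ne_zero (qExpansion 1 E₆)] Φ := by
  have hcj := cj_aeval_tup G hΦ
  obtain ⟨N, hN⟩ := isLO_prod_cj (aeval_tup_inv G hΦ) (aeval_tup_mem G Φ none).1
    (fun i => by rw [hcj]; exact (aeval_tup_mem G Φ i).2.2)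
  refine ⟨N, ?_⟩
  rw [← qExpansion_levelOne, hN]
  simp_rw [hcj]
  rw [qExpansion_prod_HB _ _ (aeval_tup_mem G Φ)]
  simp_rw [qExpansion_aeval_tup]
  rw [Fintype.prod_option, Finset.prod_range]
  rfl

/-- **POW**: `g ^ k + (-1)^k p^(1-k) U_p ((U_p g) ^ k)` is the `q`-expansion of a level-one form
of weight `2 k`. -/
theorem POW (G : ModularForm (Gamma0 p) 2) (k : ℕ) :
    ∃ F : ModularForm 𝒮ℒ (2 * (k : ℤ)), qExpansion 1 F =
      qExpansion 1 G ^ k + ((-1 : ℂ) ^ k * (p : ℂ) * ((p : ℂ)⁻¹) ^ k) •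
        Up p (Up p (qExpansion 1 G) ^ k) := by
  have hΦ : MvPolynomial.IsWeightedHomogeneous (![2, 4, 6] : Fin 3 → ℕ)
      ((MvPolynomial.X 0 : MvPolynomial (Fin 3) ℂ) ^ k) (2 * k) := by
    have h := (MvPolynomial.isWeightedHomogeneous_X ℂ (![2, 4, 6] : Fin 3 → ℕ) 0).pow k
    have e : k • (![2, 4, 6] : Fin 3 → ℕ) 0 = 2 * k := by simp [mul_comm]
    rwa [e] at h
  obtain ⟨F, hF⟩ := TRACE G (2 * k) _ hΦ
  refine ⟨ModularForm.mcast (by push_cast; ring) F, ?_⟩
  have hF' : qExpansion 1 (ModularForm.mcast (by push_cast; ring) F :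
      ModularForm 𝒮ℒ (2 * (k : ℤ))) = qExpansion 1 F := rfl
  rw [hF']
  apply expand_injective hp.out.ne_zero
  rw [hF]
  simp only [map_pow, MvPolynomial.aeval_X, Matrix.cons_val_zero]
  rw [sum_conjQ_pow hp.out.ne_zero, map_add, map_pow, PowerSeries.expand_smul]

/-- **T1**: `U_p² = 1` on `q`-expansions of forms in `M₂(Γ₀(p))`. -/
theorem T1 (G : ModularForm (Gamma0 p) 2) :
    Up p (Up p (qExpansion 1 G)) = qExpansion 1 G := by
  obtain ⟨F, hF⟩ := POW G 1
  have h0 : (ModularForm.mcast (by norm_num) F : ModularForm 𝒮ℒ 2) = 0 :=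
    (rank_zero_iff_forall_zero.mp ModularForm.levelOne_weight_two_rank_zero) _
  have hF0 : qExpansion 1 F = 0 := by
    have h1 : qExpansion 1 (ModularForm.mcast (by norm_num) F : ModularForm 𝒮ℒ 2) =
        qExpansion 1 F := rfl
    rw [← h1, h0]
    exact qExpansion_zero _
  rw [hF0] at hF
  simp only [pow_one] at hF
  have hp0 : (p : ℂ) ≠ 0 := by exact_mod_cast hp.out.ne_zero
  rw [mul_assoc, mul_inv_cancel₀ hp0, mul_one, neg_one_smul] at hF
  exact (sub_eq_zero.mp (by rw [sub_eq_add_neg]; exact hF.symm)).symm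

/-- `U_p` on `q`-expansions is the `q`-expansion of `U_p`. -/
theorem Up_qExpansion (G : ModularForm (Gamma0 p) 2) :
    Up p (qExpansion 1 G) = qExpansion 1 (heckeU 2 p G) := by
  ext n
  rw [coeff_Up, mul_comm]
  exact (ModularFormClass.qCoeff_heckeU G (CongruenceSubgroup.one_mem_strictPeriods_Gamma0 p)
    hp.out.ne_zero n).symm

end Fermat.Agent.S16.TraceQ
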